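import Mathlib
import Fermat.Agent.S16.BDefs

/-!
# ES / DESC : descent `ℂ → ℚ̄` for cusp forms with a finite order character of `Γ₀(N)`

Goal (`Stmt_desc`): for every character `χ : Γ₀(N) → ℂˣ` with `χ ^ m = 1`, trivial on the stabiliser
of `∞`, there is a nonzero cusp form `G` with character `χ` all of whose `q`-coefficients are
algebraic numbers.

Route.  `Aut(ℂ)` acts on cusp forms with finite order character (`Stmt_TW`):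
* `S_k(Γ₀(N))` is stable under `σ` (landed: `QInt.exists_twist`), `Stmt_twist`;
* `G_i := ϑ^i G` (Serre derivative), `f_i := G_i ^ m ∈ S(Γ₀(N))` satisfy the polynomial identities
  `(ϑ f_i)^m = m^m f_i^(m-1) f_(i+1)`; so do the twists `F_i = σ(f_i)`;
* these identities force `m ∣ ord_z F_i` for all `z ∈ ℍ` (`Stmt_orderChain`);
* root extraction on the unit `q`-disc (`Stmt_ballRoot`, `Stmt_rootQE`);
* the root has a character (`Stmt_charOfRoot`).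
Then the normalised element of maximal order at `∞` has a finite `Aut(ℂ)`-orbit.

This file only contains definitions and statements (`Prop`s).
-/

set_option autoImplicit false

namespace Fermat.Agent.ES.Desc

open UpperHalfPlane ModularForm CongruenceSubgroup Matrix.SpecialLinearGroup Filter Topology
open Fermat.Agent.S16 (HasQE theta E2f)
open scoped MatrixGroups ModularForm Manifold

noncomputable section

/-- `G` is a cusp form of weight `k` on `Γ₀(N)` with character `χ` (function level predicate). -/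
structure IsCFχ (N : ℕ) (χ : Gamma0 N →* ℂˣ) (k : ℤ) (G : ℍ → ℂ) : Prop where
  holo : MDiff G
  slash : ∀ γ : Gamma0 N, G ∣[k] (γ : SL(2, ℤ)) = ((χ γ : ℂˣ) : ℂ) • G
  zero : ∀ g : SL(2, ℤ), IsZeroAtImInfty (G ∣[k] g)

/-- the formal Serre derivative `θ a - (k/12) E₂ a`. -/
def serreF (k : ℂ) (a : PowerSeries ℂ) : PowerSeries ℂ := theta a - (k / 12) • (E2f * a)

/-! ## (A) Serre derivative and powers -/

def Stmt_serre : Prop :=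
  ∀ (N : ℕ) (χ : Gamma0 N →* ℂˣ) (k : ℤ) (G : ℍ → ℂ), IsCFχ N χ k G →
    IsCFχ N χ (k + 2) (Derivative.serreDerivative (k : ℂ) G)

def Stmt_pow : Prop :=
  ∀ (N : ℕ) (χ : Gamma0 N →* ℂˣ) (k : ℤ) (G : ℍ → ℂ) (m : ℕ), 0 < m → (∀ γ, χ γ ^ m = 1) →
    IsCFχ N χ k G → IsCFχ N 1 (k * m) (G ^ m)

/-- product of forms with characters. -/
def Stmt_mul : Prop :=
  ∀ (N : ℕ) (χ₁ χ₂ : Gamma0 N →* ℂˣ) (k₁ k₂ : ℤ) (G₁ G₂ : ℍ → ℂ),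
    IsCFχ N χ₁ k₁ G₁ → IsCFχ N χ₂ k₂ G₂ → IsCFχ N (χ₁ * χ₂) (k₁ + k₂) (G₁ * G₂)

def Stmt_serre_pow : Prop :=
  ∀ (k : ℤ) (G : ℍ → ℂ) (m : ℕ), 0 < m → MDiff G →
    Derivative.serreDerivative (((k * m : ℤ)) : ℂ) (G ^ m) =
      (m : ℂ) • (G ^ (m - 1) * Derivative.serreDerivative (k : ℂ) G)

/-! ## (B) `q`-expansions -/

def Stmt_hasQE_serre : Prop :=
  ∀ (k : ℂ) (F : ℍ → ℂ) (a : PowerSeries ℂ), HasQE 1 F a →
    HasQE 1 (Derivative.serreDerivative k F) (serreF k a)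

def Stmt_serreF_map : Prop :=
  ∀ (σ : ℂ →+* ℂ) (k : ℤ) (a : PowerSeries ℂ),
    (serreF (k : ℂ) a).map σ = serreF (k : ℂ) (a.map σ)

/-- a cusp form with character trivial on `T` has a `q`-expansion. -/
def Stmt_exists_hasQE : Prop :=
  ∀ (N : ℕ) (χ : Gamma0 N →* ℂˣ) (k : ℤ) (G : ℍ → ℂ), IsCFχ N χ k G →
    (∀ γ : Gamma0 N, (γ : SL(2, ℤ)) 1 0 = 0 → χ γ = 1) → ∃ a : PowerSeries ℂ, HasQE 1 G a

/-- the landed `QInt.exists_twist`, in the language of this file. -/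
def Stmt_twist : Prop :=
  ∀ (N : ℕ) [NeZero N] (σ : ℂ →+* ℂ) (k : ℤ) (f : ℍ → ℂ) (a : PowerSeries ℂ),
    IsCFχ N 1 k f → HasQE 1 f a → ∃ F : ℍ → ℂ, IsCFχ N 1 k F ∧ HasQE 1 F (a.map σ)

/-- Sturm bound for forms with character. -/
def Stmt_sturm : Prop :=
  ∀ (N : ℕ) [NeZero N] (m : ℕ), 0 < m → ∀ k : ℤ, ∃ B : ℕ, ∀ (χ : Gamma0 N →* ℂˣ),
    (∀ γ, χ γ ^ m = 1) → ∀ (G : ℍ → ℂ) (a : PowerSeries ℂ), IsCFχ N χ k G → HasQE 1 G a →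
      (∀ n ≤ B, PowerSeries.coeff n a = 0) → a = 0

/-! ## (C) complex analysis -/

/-- ORDER LEMMA. -/
def Stmt_orderChain : Prop :=
  ∀ (m : ℕ), 0 < m → ∀ (F : ℕ → ℍ → ℂ) (w : ℕ → ℂ), (∀ i, MDiff (F i)) →
    (∀ i, (Derivative.serreDerivative (w i) (F i)) ^ m =
      ((m : ℂ) ^ m) • ((F i) ^ (m - 1) * F (i + 1))) →
    ∀ (i : ℕ) (z : ℍ), analyticOrderAt (F i ∘ ofComplex) (z : ℂ) ≠ ⊤ →
      ∃ n : ℕ, analyticOrderAt (F i ∘ ofComplex) (z : ℂ) = ((m * n : ℕ) : ℕ∞)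

/-- ROOT EXTRACTION on a ball. -/
def Stmt_ballRoot : Prop :=
  ∀ (m : ℕ), 0 < m → ∀ (c : ℂ) (r : ℝ) (f : ℂ → ℂ), AnalyticOnNhd ℂ f (Metric.ball c r) →
    (∀ z ∈ Metric.ball c r, ∃ n : ℕ, analyticOrderAt f z = ((m * n : ℕ) : ℕ∞)) →
    ∃ g : ℂ → ℂ, AnalyticOnNhd ℂ g (Metric.ball c r) ∧ ∀ z ∈ Metric.ball c r, g z ^ m = f z

/-- root extraction for a `1`-periodic function, through the `q`-disc. -/
def Stmt_rootQE : Prop :=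
  ∀ (m : ℕ), 0 < m → ∀ (F : ℍ → ℂ) (b : PowerSeries ℂ), MDiff F → HasQE 1 F (b ^ m) →
    (∀ z : ℍ, ∃ n : ℕ, analyticOrderAt (F ∘ ofComplex) (z : ℂ) = ((m * n : ℕ) : ℕ∞)) →
    ∃ G' : ℍ → ℂ, MDiff G' ∧ HasQE 1 G' b ∧ G' ^ m = F

/-- a nonzero holomorphic function on `ℍ` has finite order everywhere. -/
def Stmt_order_ne_top : Prop :=
  ∀ (F : ℍ → ℂ), MDiff F → F ≠ 0 → ∀ z : ℍ, analyticOrderAt (F ∘ ofComplex) (z : ℂ) ≠ ⊤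

/-- the root of a cusp form on `Γ₀(N)` is a cusp form with character. -/
def Stmt_charOfRoot : Prop :=
  ∀ (N : ℕ) (m : ℕ), 0 < m → ∀ (k : ℤ) (G' : ℍ → ℂ), MDiff G' → G' ≠ 0 →
    IsCFχ N 1 (k * m) (G' ^ m) →
    ∃ χ' : Gamma0 N →* ℂˣ, (∀ γ, χ' γ ^ m = 1) ∧ IsCFχ N χ' k G'

/-! ## (D) the twist theorem -/

/-- THEOREM TW: `Aut(ℂ)` acts on cusp forms with finite order character. -/
def Stmt_TW : Prop :=
  ∀ (N : ℕ) [NeZero N] (m : ℕ), 0 < m → ∀ (σ : ℂ →+* ℂ) (χ : Gamma0 N →* ℂˣ),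
    (∀ γ, χ γ ^ m = 1) → ∀ (k : ℤ) (G : ℍ → ℂ) (a : PowerSeries ℂ), IsCFχ N χ k G → HasQE 1 G a →
    ∃ (χ' : Gamma0 N →* ℂˣ) (G' : ℍ → ℂ), (∀ γ, χ' γ ^ m = 1) ∧ IsCFχ N χ' k G' ∧
      HasQE 1 G' (a.map σ)

/-- the twisted character depends only on `(σ, χ)`. -/
def Stmt_char_indep : Prop :=
  ∀ (N : ℕ) [NeZero N] (m : ℕ), 0 < m → ∀ (σ : ℂ →+* ℂ) (χ χ₁ χ₂ : Gamma0 N →* ℂˣ),
    (∀ γ, χ γ ^ m = 1) → (∀ γ, χ₁ γ ^ m = 1) → (∀ γ, χ₂ γ ^ m = 1) →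
    ∀ (k : ℤ) (G₁ G₂ G₁' G₂' : ℍ → ℂ) (a₁ a₂ : PowerSeries ℂ), a₁ ≠ 0 → a₂ ≠ 0 →
      IsCFχ N χ k G₁ → HasQE 1 G₁ a₁ → IsCFχ N χ k G₂ → HasQE 1 G₂ a₂ →
      IsCFχ N χ₁ k G₁' → HasQE 1 G₁' (a₁.map σ) → IsCFχ N χ₂ k G₂' → HasQE 1 G₂' (a₂.map σ) →
      χ₁ = χ₂

/-! ## (E) finiteness and algebraicity -/

def Stmt_finite_chars : Prop :=
  ∀ (N : ℕ) [NeZero N] (m : ℕ), 0 < m → {χ : Gamma0 N →* ℂˣ | ∀ γ, χ γ ^ m = 1}.Finite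

def Stmt_algebraic_of_finite_orbit : Prop :=
  ∀ z : ℂ, (Set.range fun σ : ℂ ≃+* ℂ => σ z).Finite → IsAlgebraic ℚ z

/-- the set of `q`-expansions of the cusp forms of weight `k` and character `χ`. -/
def qSet (N : ℕ) (χ : Gamma0 N →* ℂˣ) (k : ℤ) : Set (PowerSeries ℂ) :=
  {a | ∃ G : ℍ → ℂ, IsCFχ N χ k G ∧ HasQE 1 G a}

/-- `c` is the normalised element of maximal order of `qSet N χ k`. -/
def IsCanon (N : ℕ) (χ : Gamma0 N →* ℂˣ) (k : ℤ) (c : PowerSeries ℂ) : Prop :=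
  c ∈ qSet N χ k ∧ c ≠ 0 ∧ PowerSeries.coeff c.order.toNat c = 1 ∧
    ∀ a ∈ qSet N χ k, a ≠ 0 → a.order ≤ c.order

def Stmt_canon_exists : Prop :=
  ∀ (N : ℕ) [NeZero N] (m : ℕ), 0 < m → ∀ (χ : Gamma0 N →* ℂˣ), (∀ γ, χ γ ^ m = 1) →
    ∀ k : ℤ, (∃ a ∈ qSet N χ k, a ≠ 0) → ∃ c, IsCanon N χ k c

def Stmt_canon_unique : Prop :=
  ∀ (N : ℕ) (χ : Gamma0 N →* ℂˣ) (k : ℤ) (c c' : PowerSeries ℂ),
    IsCanon N χ k c → IsCanon N χ k c' → c = c'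

/-- `σ` maps canonical elements to canonical elements. -/
def Stmt_canon_map : Prop :=
  ∀ (N : ℕ) [NeZero N] (m : ℕ), 0 < m → ∀ (σ : ℂ ≃+* ℂ) (χ : Gamma0 N →* ℂˣ), (∀ γ, χ γ ^ m = 1) →
    ∀ (k : ℤ) (c : PowerSeries ℂ), IsCanon N χ k c →
      ∃ χ' : Gamma0 N →* ℂˣ, (∀ γ, χ' γ ^ m = 1) ∧ IsCanon N χ' k (c.map (σ : ℂ →+* ℂ))

def Stmt_canon_algebraic : Prop :=
  ∀ (N : ℕ) [NeZero N] (m : ℕ), 0 < m → ∀ (χ : Gamma0 N →* ℂˣ), (∀ γ, χ γ ^ m = 1) →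
    ∀ (k : ℤ) (c : PowerSeries ℂ), IsCanon N χ k c → ∀ n, IsAlgebraic ℚ (PowerSeries.coeff n c)

/-! ## (F) the final statement -/

/-- DESC. -/
def Stmt_desc : Prop :=
  ∀ (N : ℕ) [NeZero N] (m : ℕ), 0 < m → ∀ (χ : Gamma0 N →* ℂˣ), (∀ γ, χ γ ^ m = 1) →
    (∀ γ : Gamma0 N, (γ : SL(2, ℤ)) 1 0 = 0 → χ γ = 1) →
    ∃ (k : ℕ) (G : ℍ → ℂ) (a : PowerSeries ℂ), 0 < k ∧ G ≠ 0 ∧ IsCFχ N χ (12 * k) G ∧ HasQE 1 G a ∧
      ∀ n, IsAlgebraic ℚ (PowerSeries.coeff n a)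

end

end Fermat.Agent.ES.Desc
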