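import Mathlib
import Fermat.Agent.ES.Desc.Interface

/-!
# ES / DESC-E : root extraction on a ball (`Stmt_ballRoot`)
-/

set_option autoImplicit false

namespace Fermat.Agent.ES.Desc.BallRoot

open Metric Filter Topology Set

/-- an analytic function without zeros on a ball has an analytic `m`-th root. -/
lemma exists_root_of_ne_zero {m : ℕ} (hm : 0 < m) {c : ℂ} {s : ℝ} {u : ℂ → ℂ}
    (hu : AnalyticOnNhd ℂ u (ball c s)) (hne : ∀ z ∈ ball c s, u z ≠ 0) :
    ∃ v : ℂ → ℂ, AnalyticOnNhd ℂ v (ball c s) ∧ ∀ z ∈ ball c s, v z ^ m = u z := by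
  by_cases hs : 0 < s
  swap
  · refine ⟨0, fun z hz => ?_, fun z hz => ?_⟩ <;>
    · rw [ball_eq_empty.mpr (not_lt.mp hs)] at hz
      exact absurd hz (Set.notMem_empty _)
  have hc : c ∈ ball c s := mem_ball_self hs
  have hd : DifferentiableOn ℂ (fun z => deriv u z / u z) (ball c s) :=
    (hu.deriv.differentiableOn).div hu.differentiableOn hne
  obtain ⟨L, hL⟩ := hd.isExactOn_ball
  have hw : ∀ z ∈ ball c s, HasDerivAt (fun z => u z * Complex.exp (-L z)) 0 z := by
    intro z hz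
    have h1 : HasDerivAt u (deriv u z) z := (hu z hz).differentiableAt.hasDerivAt
    have h2 : HasDerivAt (fun z => Complex.exp (-L z))
        (Complex.exp (-L z) * (-(deriv u z / u z))) z := ((hL z hz).neg).cexp
    have h3 := h1.fun_mul h2
    have h4 : deriv u z * Complex.exp (-L z) +
        u z * (Complex.exp (-L z) * -(deriv u z / u z)) = 0 := by
      have := hne z hz
      field_simp
      ring
    rw [h4] at h3
    exact h3
  have hconst : ∀ z ∈ ball c s, u z * Complex.exp (-L z) = u c * Complex.exp (-L c) := by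
    intro z hz
    exact isOpen_ball.is_const_of_deriv_eq_zero (convex_ball c s).isPreconnected
      (fun z hz => (hw z hz).differentiableAt.differentiableWithinAt)
      (fun z hz => (hw z hz).deriv) hz hc
  set C : ℂ := u c * Complex.exp (-L c) with hC
  have hC0 : C ≠ 0 := mul_ne_zero (hne c hc) (Complex.exp_ne_zero _)
  refine ⟨fun z => Complex.exp ((L z + Complex.log C) / m), ?_, ?_⟩
  · apply DifferentiableOn.analyticOnNhd _ isOpen_ball
    intro z hz
    have : DifferentiableAt ℂ L z := (hL z hz).differentiableAt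
    exact (((this.add_const _).div_const _).cexp).differentiableWithinAt
  · intro z hz
    have hm' : (m : ℂ) ≠ 0 := Nat.cast_ne_zero.mpr hm.ne'
    rw [← Complex.exp_nat_mul, mul_div_cancel₀ _ hm', Complex.exp_add, Complex.exp_log hC0,
      ← hconst z hz, Complex.exp_neg]
    field_simp

/-- two analytic `m`-th roots of the same function on a ball which agree at a point where they do
not vanish are equal. -/
lemma root_unique {m : ℕ} (hm : 0 < m) {c : ℂ} {s : ℝ} {a b : ℂ → ℂ}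
    (ha : AnalyticOnNhd ℂ a (ball c s)) (hb : AnalyticOnNhd ℂ b (ball c s))
    (hab : ∀ z ∈ ball c s, a z ^ m = b z ^ m) {z₀ : ℂ} (hz₀ : z₀ ∈ ball c s)
    (h0 : a z₀ = b z₀) (hne : a z₀ ≠ 0) : EqOn a b (ball c s) := by
  apply ha.eqOn_of_preconnected_of_eventuallyEq hb (convex_ball c s).isPreconnected hz₀
  have hcont : ContinuousAt (fun z => ∑ i ∈ Finset.range m, a z ^ i * b z ^ (m - 1 - i)) z₀ := by
    apply tendsto_finsetSum
    intro i _
    exact ((ha z₀ hz₀).continuousAt.pow i).mul ((hb z₀ hz₀).continuousAt.pow _)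
  have hval : (∑ i ∈ Finset.range m, a z₀ ^ i * b z₀ ^ (m - 1 - i)) ≠ 0 := by
    have : ∀ i ∈ Finset.range m, a z₀ ^ i * b z₀ ^ (m - 1 - i) = a z₀ ^ (m - 1) := by
      intro i hi
      rw [← h0, ← pow_add]
      congr 1
      have := Finset.mem_range.mp hi
      omega
    rw [Finset.sum_congr rfl this, Finset.sum_const, Finset.card_range, nsmul_eq_mul]
    exact mul_ne_zero (Nat.cast_ne_zero.mpr hm.ne') (pow_ne_zero _ hne)
  filter_upwards [hcont.eventually_ne hval, isOpen_ball.mem_nhds hz₀] with z hz1 hz2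
  have := (Commute.all (a z) (b z)).mul_geom_sum₂ m
  rw [hab z hz2, sub_self] at this
  rcases mul_eq_zero.mp this with h | h
  · exact sub_eq_zero.mp h
  · exact absurd h hz1

/-- root extraction on a strictly smaller ball. -/
lemma exists_root_small {m : ℕ} (hm : 0 < m) {c : ℂ} {r s : ℝ} (hsr : s < r) {f : ℂ → ℂ}
    (hf : AnalyticOnNhd ℂ f (ball c r))
    (hord : ∀ z ∈ ball c r, ∃ n : ℕ, analyticOrderAt f z = ((m * n : ℕ) : ℕ∞)) :
    ∃ g : ℂ → ℂ, AnalyticOnNhd ℂ g (ball c s) ∧ ∀ z ∈ ball c s, g z ^ m = f z := by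
  set U : Set ℂ := closedBall c s with hUdef
  have hU : U ⊆ ball c r := closedBall_subset_ball hsr
  have hbU : ball c s ⊆ U := ball_subset_closedBall
  have hfU : AnalyticOnNhd ℂ f U := hf.mono hU
  have hmer : MeromorphicOn f U := hfU.meromorphicOn
  have hordU : ∀ u : U, meromorphicOrderAt f u ≠ ⊤ := by
    intro u
    obtain ⟨n, hn⟩ := hord u (hU u.2)
    rw [(hfU u u.2).meromorphicOrderAt_eq, hn, ENat.map_natCast]
    exact WithTop.coe_ne_top
  have hfin : (MeromorphicOn.divisor f U).support.Finite :=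
    (MeromorphicOn.divisor f U).finiteSupport (isCompact_closedBall c s)
  obtain ⟨g0, hg0a, hg0n, hg0e⟩ := hmer.extract_zeros_poles hordU hfin
  have hD : ∀ u, ∃ e : ℕ, MeromorphicOn.divisor f U u = ((m * e : ℕ) : ℤ) := by
    intro u
    by_cases hu : u ∈ U
    · obtain ⟨n, hn⟩ := hord u (hU hu)
      refine ⟨n, ?_⟩
      rw [MeromorphicOn.divisor_apply hmer hu, (hfU u hu).meromorphicOrderAt_eq, hn]
      simp
    · exact ⟨0, by simp [hu]⟩
  choose e he using hD
  set d : ℂ → ℤ := fun u => (e u : ℤ) with hd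
  set P : ℂ → ℂ := ∏ᶠ u, (· - u) ^ d u with hP
  have hPa : ∀ z, AnalyticAt ℂ P z := fun z =>
    Function.FactorizedRational.analyticAt (by simp [hd])
  have hdfin : (fun u : ℂ => ((· - u) ^ d u : ℂ → ℂ)).mulSupport.Finite := by
    rw [Function.FactorizedRational.mulSupport]
    refine hfin.subset ?_
    intro u hu
    simp only [Function.mem_support, hd] at hu ⊢
    rw [he u]
    have : e u ≠ 0 := by exact_mod_cast hu
    exact_mod_cast mul_ne_zero hm.ne' this
  have hPm : P ^ m = ∏ᶠ u, (· - u) ^ MeromorphicOn.divisor f U u := by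
    rw [hP, finprod_pow hdfin]
    congr 1
    ext u z
    simp only [Pi.pow_apply, hd, he u]
    rw [zpow_natCast, zpow_natCast, ← pow_mul, mul_comm]
  obtain ⟨v, hva, hvm⟩ := exists_root_of_ne_zero hm (hg0a.mono hbU)
    (fun z hz => hg0n ⟨z, hbU hz⟩)
  refine ⟨fun z => P z * v z, fun z hz => (hPa z).mul (hva z hz), fun z hz => ?_⟩
  rw [← hPm] at hg0e
  have h1 : {x | f x = (P ^ m • g0) x} ∪ Uᶜ ∈ 𝓝[≠] z :=
    mem_codiscreteWithin_iff_forall_mem_nhdsNE.mp hg0e z (hbU hz)
  have h2 : U ∈ 𝓝[≠] z :=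
    nhdsWithin_le_nhds (Filter.mem_of_superset (isOpen_ball.mem_nhds hz) hbU)
  have h3 : f =ᶠ[𝓝[≠] z] (P ^ m • g0) := by
    filter_upwards [h1, h2] with x hx1 hx2
    rcases hx1 with h | h
    · exact h
    · exact absurd hx2 h
  have h4 : Tendsto f (𝓝[≠] z) (𝓝 (f z)) :=
    ((hfU z (hbU hz)).continuousAt.tendsto).mono_left nhdsWithin_le_nhds
  have h5 : Tendsto (P ^ m • g0) (𝓝[≠] z) (𝓝 ((P ^ m • g0) z)) :=
    ((((hPa z).pow m).smul (hg0a z (hbU hz))).continuousAt.tendsto).mono_left nhdsWithin_le_nhds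
  have h6 := tendsto_nhds_unique_of_eventuallyEq h4 h5 h3
  rw [h6, mul_pow, hvm z hz]
  simp

/-- root extraction on a ball. -/
theorem ballRoot {m : ℕ} (hm : 0 < m) (c : ℂ) (r : ℝ) (f : ℂ → ℂ)
    (hf : AnalyticOnNhd ℂ f (ball c r))
    (hord : ∀ z ∈ ball c r, ∃ n : ℕ, analyticOrderAt f z = ((m * n : ℕ) : ℕ∞)) :
    ∃ g : ℂ → ℂ, AnalyticOnNhd ℂ g (ball c r) ∧ ∀ z ∈ ball c r, g z ^ m = f z := by
  by_cases hr : 0 < r
  swap
  · refine ⟨0, fun z hz => ?_, fun z hz => ?_⟩ <;>
    · rw [ball_eq_empty.mpr (not_lt.mp hr)] at hz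
      exact absurd hz (Set.notMem_empty _)
  have hc : c ∈ ball c r := mem_ball_self hr
  -- a base point where `f` does not vanish
  obtain ⟨z₀, hz₀, hfz₀⟩ : ∃ z₀ ∈ ball c r, f z₀ ≠ 0 := by
    obtain ⟨n, hn⟩ := hord c hc
    have h1 : analyticOrderAt f c ≠ ⊤ := by rw [hn]; exact ENat.natCast_ne_top _
    rw [Ne, analyticOrderAt_eq_top, Filter.not_eventually] at h1
    obtain ⟨z, hz1, hz2⟩ := (h1.and_eventually (isOpen_ball.mem_nhds hc)).exists
    exact ⟨z, hz2, hz1⟩
  obtain ⟨w₀, hw₀⟩ := IsAlgClosed.exists_pow_nat_eq (f z₀) hm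
  have hw₀0 : w₀ ≠ 0 := by
    intro h
    rw [h, zero_pow hm.ne'] at hw₀
    exact hfz₀ hw₀.symm
  set d₀ : ℝ := dist z₀ c with hd₀
  have hd₀r : d₀ < r := hz₀
  -- normalised roots on smaller balls
  have H : ∀ s : ℝ, d₀ < s → s < r → ∃ G : ℂ → ℂ, AnalyticOnNhd ℂ G (ball c s) ∧
      (∀ z ∈ ball c s, G z ^ m = f z) ∧ G z₀ = w₀ := by
    intro s hs1 hs2
    obtain ⟨g, hga, hgm⟩ := exists_root_small hm hs2 hf hord
    have hz₀s : z₀ ∈ ball c s := hs1
    have hg0 : g z₀ ≠ 0 := by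
      intro h
      have := hgm z₀ hz₀s
      rw [h, zero_pow hm.ne'] at this
      exact hfz₀ this.symm
    refine ⟨fun z => (w₀ / g z₀) * g z, fun z hz => analyticAt_const.mul (hga z hz), ?_, ?_⟩
    · intro z hz
      rw [mul_pow, div_pow, hw₀, hgm z₀ hz₀s, div_self hfz₀, one_mul, hgm z hz]
    · field_simp
  choose! G hGa hGm hG0 using H
  -- compatibility
  have hcompat : ∀ s t : ℝ, d₀ < s → s ≤ t → t < r → EqOn (G s) (G t) (ball c s) := by
    intro s t hs hst ht
    have hsub : ball c s ⊆ ball c t := ball_subset_ball hst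
    have hs' : s < r := lt_of_le_of_lt hst ht
    have ht' : d₀ < t := lt_of_lt_of_le hs hst
    refine root_unique hm (hGa s hs hs') ((hGa t ht' ht).mono hsub) ?_ (z₀ := z₀) hs ?_ ?_
    · intro z hz
      rw [hGm s hs hs' z hz, hGm t ht' ht z (hsub hz)]
    · rw [hG0 s hs hs', hG0 t ht' ht]
    · rw [hG0 s hs hs']; exact hw₀0
  set σ : ℂ → ℝ := fun z => (max (dist z c) d₀ + r) / 2 with hσ
  have hσ1 : ∀ z ∈ ball c r, d₀ < σ z := by
    intro z hz
    have h1 : dist z c < r := hz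
    have h2 := le_max_right (dist z c) d₀
    simp only [hσ]
    linarith
  have hσ2 : ∀ z ∈ ball c r, σ z < r := by
    intro z hz
    have h1 : dist z c < r := hz
    have h2 : max (dist z c) d₀ < r := max_lt h1 hd₀r
    simp only [hσ]
    linarith
  have hσ3 : ∀ z ∈ ball c r, z ∈ ball c (σ z) := by
    intro z hz
    have h1 : dist z c < r := hz
    have h2 := le_max_left (dist z c) d₀
    have h3 : max (dist z c) d₀ < r := max_lt h1 hd₀r
    simp only [hσ, mem_ball]
    linarith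
  have key : ∀ z ∈ ball c r, EqOn (fun x => G (σ x) x) (G (σ z)) (ball c (σ z)) := by
    intro z hz x hx
    have hxr : x ∈ ball c r := ball_subset_ball (hσ2 z hz).le hx
    rcases le_total (σ x) (σ z) with h | h
    · exact hcompat _ _ (hσ1 x hxr) h (hσ2 z hz) (hσ3 x hxr)
    · exact (hcompat _ _ (hσ1 z hz) h (hσ2 x hxr) hx).symm
  refine ⟨fun x => G (σ x) x, fun z hz => ?_, fun z hz => ?_⟩
  · refine (hGa _ (hσ1 z hz) (hσ2 z hz) z (hσ3 z hz)).congr ?_
    filter_upwards [isOpen_ball.mem_nhds (hσ3 z hz)] with x hx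
    exact (key z hz hx).symm
  · exact hGm _ (hσ1 z hz) (hσ2 z hz) z (hσ3 z hz)

end Fermat.Agent.ES.Desc.BallRoot

namespace Fermat.Agent.ES.Desc

theorem stmt_ballRoot : Stmt_ballRoot :=
  fun _ hm c r f hf hord => BallRoot.ballRoot hm c r f hf hord

end Fermat.Agent.ES.Desc
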