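import Fermat.Agent.ES.Desc.Interface
import Fermat.Agent.S16.QE1

/-!
# ES / DESC-J : canonical elements
-/

set_option autoImplicit false

namespace Fermat.Agent.ES.Desc

open UpperHalfPlane ModularForm CongruenceSubgroup Matrix.SpecialLinearGroup Filter Topology
open Fermat.Agent.S16 (HasQE theta E2f)
open scoped MatrixGroups ModularForm Manifold

namespace Canon

variable {N : ℕ} {χ : Gamma0 N →* ℂˣ} {k : ℤ}

theorem isCFχ_smul {G : ℍ → ℂ} (c : ℂ) (h : IsCFχ N χ k G) : IsCFχ N χ k (c • G) where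
  holo := h.holo.const_smul c
  slash γ := by
    rw [SL_smul_slash, h.slash γ, smul_comm]
  zero g := by
    rw [SL_smul_slash]
    exact (h.zero g).smul c

theorem isCFχ_sub {G G' : ℍ → ℂ} (h : IsCFχ N χ k G) (h' : IsCFχ N χ k G') :
    IsCFχ N χ k (G - G') where
  holo := h.holo.sub h'.holo
  slash γ := by
    rw [sub_eq_add_neg, SlashAction.add_slash, SlashAction.neg_slash, h.slash γ, h'.slash γ,
      smul_add, smul_neg]
  zero g := by
    rw [sub_eq_add_neg, SlashAction.add_slash, SlashAction.neg_slash]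
    exact (h.zero g).add (h'.zero g).neg

theorem qSet_smul {a : PowerSeries ℂ} (c : ℂ) (h : a ∈ qSet N χ k) : c • a ∈ qSet N χ k := by
  obtain ⟨G, hG, hq⟩ := h
  exact ⟨c • G, isCFχ_smul c hG, hq.smul c⟩

theorem qSet_sub {a b : PowerSeries ℂ} (h : a ∈ qSet N χ k) (h' : b ∈ qSet N χ k) :
    a - b ∈ qSet N χ k := by
  obtain ⟨G, hG, hq⟩ := h
  obtain ⟨G', hG', hq'⟩ := h'
  exact ⟨G - G', isCFχ_sub hG hG', hq.sub hq'⟩

/-- order and nonvanishing are preserved by an injective coefficient map. -/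
theorem order_map_of_injective (σ : ℂ →+* ℂ) (hσ : Function.Injective σ) (a : PowerSeries ℂ) :
    (a.map σ).order = a.order := by
  rcases eq_or_ne a 0 with rfl | ha
  · simp
  rw [← PowerSeries.coe_toNat_order ha, PowerSeries.order_eq_nat]
  refine ⟨?_, fun i hi => ?_⟩
  · rw [PowerSeries.coeff_map]
    exact (map_ne_zero_iff σ hσ).2 (PowerSeries.coeff_order ha)
  · rw [PowerSeries.coeff_map, PowerSeries.coeff_of_lt_order_toNat i hi, map_zero]

theorem map_ne_zero_of_injective (σ : ℂ →+* ℂ) (hσ : Function.Injective σ) {a : PowerSeries ℂ}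
    (ha : a ≠ 0) : a.map σ ≠ 0 := by
  intro h
  apply ha
  rw [← PowerSeries.order_eq_top, ← order_map_of_injective σ hσ, h, PowerSeries.order_zero]

theorem map_map_symm (σ : ℂ ≃+* ℂ) (a : PowerSeries ℂ) :
    (a.map (σ : ℂ →+* ℂ)).map (σ.symm : ℂ →+* ℂ) = a := by
  ext n
  simp

/-- A nonzero function has at most one character. -/
theorem char_unique {χ₁ χ₂ : Gamma0 N →* ℂˣ} {G : ℍ → ℂ} (hG : G ≠ 0) (h₁ : IsCFχ N χ₁ k G)
    (h₂ : IsCFχ N χ₂ k G) : χ₁ = χ₂ := by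
  obtain ⟨τ, hτ⟩ : ∃ τ, G τ ≠ 0 := by
    by_contra hcon
    push Not at hcon
    exact hG (funext hcon)
  ext γ
  have h := (h₁.slash γ).symm.trans (h₂.slash γ)
  have h' := congrFun h τ
  simp only [Pi.smul_apply, smul_eq_mul] at h'
  exact mul_right_cancel₀ hτ h'

theorem fun_ne_zero {G : ℍ → ℂ} {a : PowerSeries ℂ} (hq : HasQE 1 G a) (ha : a ≠ 0) : G ≠ 0 := by
  rintro rfl
  exact ha (hq.unique one_pos (HasQE.zero 1))

end Canon

open Canon

theorem stmt_canon_unique : Stmt_canon_unique := by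
  intro N χ k c c' ⟨hc, hc0, hc1, hcmax⟩ ⟨hc', hc0', hc1', hcmax'⟩
  by_contra hne
  have hord : c.order = c'.order := le_antisymm (hcmax' c hc hc0) (hcmax c' hc' hc0')
  have hd0 : c - c' ≠ 0 := sub_ne_zero.2 hne
  have hle := hcmax (c - c') (qSet_sub hc hc') hd0
  have hge : ((c.order.toNat + 1 : ℕ) : ℕ∞) ≤ (c - c').order := by
    apply PowerSeries.nat_le_order
    intro i hi
    rw [map_sub]
    rcases Nat.lt_succ_iff_lt_or_eq.1 hi with hlt | rfl
    · rw [PowerSeries.coeff_of_lt_order_toNat i hlt,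
        PowerSeries.coeff_of_lt_order_toNat i (hord ▸ hlt), sub_zero]
    · rw [hc1]
      conv_lhs => rw [hord]
      rw [hc1', sub_self]
  have h1 : ((c.order.toNat + 1 : ℕ) : ℕ∞) ≤ (c.order.toNat : ℕ∞) :=
    (hge.trans hle).trans (PowerSeries.coe_toNat_order hc0).ge
  have h2 := Nat.cast_le.1 h1
  omega

theorem stmt_canon_exists (hS : Stmt_sturm) : Stmt_canon_exists := by
  classical
  intro N _ m hm χ hχ k ⟨a₀, ha₀, ha₀0⟩
  obtain ⟨B, hB⟩ := hS N m hm k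
  -- every nonzero element has order at most `B`
  have hbound : ∀ a ∈ qSet N χ k, a ≠ 0 → a.order.toNat ≤ B := by
    rintro a ⟨G, hG, hq⟩ ha
    by_contra hlt
    rw [not_le] at hlt
    exact ha (hB χ hχ G a hG hq fun n hn =>
      PowerSeries.coeff_of_lt_order_toNat n (lt_of_le_of_lt hn hlt))
  let P : ℕ → Prop := fun e => ∃ a ∈ qSet N χ k, a ≠ 0 ∧ a.order.toNat = e
  have hP₀ : P a₀.order.toNat := ⟨a₀, ha₀, ha₀0, rfl⟩
  obtain ⟨a, ha, ha0, hae⟩ := Nat.findGreatest_spec (hbound a₀ ha₀ ha₀0) hP₀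
  have hmax : ∀ b ∈ qSet N χ k, b ≠ 0 → b.order.toNat ≤ a.order.toNat := by
    intro b hb hb0
    rw [hae]
    exact Nat.le_findGreatest (hbound b hb hb0) ⟨b, hb, hb0, rfl⟩
  have hu : PowerSeries.coeff a.order.toNat a ≠ 0 := PowerSeries.coeff_order ha0
  set u := PowerSeries.coeff a.order.toNat a with hu_def
  have hord : (u⁻¹ • a).order = a.order := by
    rw [← PowerSeries.coe_toNat_order ha0, PowerSeries.order_eq_nat]
    refine ⟨?_, fun i hi => ?_⟩
    · rw [PowerSeries.coeff_smul, smul_eq_mul]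
      exact mul_ne_zero (inv_ne_zero hu) hu
    · rw [PowerSeries.coeff_smul, PowerSeries.coeff_of_lt_order_toNat i hi, smul_zero]
  refine ⟨u⁻¹ • a, qSet_smul _ ha, ?_, ?_, ?_⟩
  · intro h0
    rw [h0, PowerSeries.order_zero] at hord
    exact ha0 (PowerSeries.order_eq_top.1 hord.symm)
  · rw [hord, PowerSeries.coeff_smul, smul_eq_mul, ← hu_def, inv_mul_cancel₀ hu]
  · intro b hb hb0
    rw [hord, ← PowerSeries.coe_toNat_order hb0, ← PowerSeries.coe_toNat_order ha0, Nat.cast_le]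
    exact hmax b hb hb0

theorem stmt_canon_map (hTW : Stmt_TW) (hCI : Stmt_char_indep) : Stmt_canon_map := by
  intro N _ m hm σ χ hχ k c ⟨⟨G, hG, hq⟩, hc0, hc1, hcmax⟩
  have hσ : Function.Injective (σ : ℂ →+* ℂ) := σ.injective
  have hσ' : Function.Injective (σ.symm : ℂ →+* ℂ) := σ.symm.injective
  obtain ⟨χ', G', hχ', hG', hq'⟩ := hTW N m hm (σ : ℂ →+* ℂ) χ hχ k G c hG hq
  have hc0' : c.map (σ : ℂ →+* ℂ) ≠ 0 := map_ne_zero_of_injective _ hσ hc0
  refine ⟨χ', hχ', ⟨G', hG', hq'⟩, hc0', ?_, ?_⟩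
  · rw [order_map_of_injective _ hσ, PowerSeries.coeff_map, hc1, map_one]
  · rintro a ⟨A, hA, hqA⟩ ha0
    obtain ⟨χ₁, A₁, hχ₁, hA₁, hqA₁⟩ := hTW N m hm (σ.symm : ℂ →+* ℂ) χ' hχ' k A a hA hqA
    obtain ⟨χ₂, G₂, hχ₂, hG₂, hqG₂⟩ :=
      hTW N m hm (σ.symm : ℂ →+* ℂ) χ' hχ' k G' (c.map (σ : ℂ →+* ℂ)) hG' hq'
    have h12 : χ₁ = χ₂ := hCI N m hm (σ.symm : ℂ →+* ℂ) χ' χ₁ χ₂ hχ' hχ₁ hχ₂ k A G' A₁ G₂ a
      (c.map (σ : ℂ →+* ℂ)) ha0 hc0' hA hqA hG' hq' hA₁ hqA₁ hG₂ hqG₂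
    rw [map_map_symm] at hqG₂
    have hGG : G₂ = G := hqG₂.fun_unique hq
    rw [hGG] at hG₂
    have h2 : χ₂ = χ := char_unique (fun_ne_zero hq hc0) hG₂ hG
    rw [h12, h2] at hA₁
    have := hcmax (a.map (σ.symm : ℂ →+* ℂ)) ⟨A₁, hA₁, hqA₁⟩ (map_ne_zero_of_injective _ hσ' ha0)
    rwa [order_map_of_injective _ hσ', ← order_map_of_injective _ hσ c] at this

end Fermat.Agent.ES.Desc
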