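import Fermat.Agent.ES.Desc.Interface
import Fermat.Agent.S16.QE1

/-!
# ES / DESC-I : the twisted character depends only on `(σ, χ)`
-/

set_option autoImplicit false

namespace Fermat.Agent.ES.Desc

open UpperHalfPlane ModularForm CongruenceSubgroup Matrix.SpecialLinearGroup Filter Topology
open Fermat.Agent.S16 (HasQE theta E2f)
open scoped MatrixGroups ModularForm Manifold

namespace CharIndep

/-- powers of a form with character -/
theorem isCFχ_pow (hmul : Stmt_mul) {N : ℕ} {χ : Gamma0 N →* ℂˣ} {k : ℤ} {G : ℍ → ℂ}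
    (hG : IsCFχ N χ k G) (j : ℕ) : IsCFχ N (χ ^ (j + 1)) (k * ((j + 1 : ℕ) : ℤ)) (G ^ (j + 1)) := by
  induction j with
  | zero =>
    have hc : χ ^ (0 + 1) = χ := by
      ext γ
      simp
    rw [hc]
    simpa using hG
  | succ j ih =>
    have h := hmul N _ _ _ _ _ _ ih hG
    have hk : k * ((j + 1 : ℕ) : ℤ) + k = k * ((j + 1 + 1 : ℕ) : ℤ) := by push_cast; ring
    have hc : χ ^ (j + 1) * χ = χ ^ (j + 1 + 1) := by
      ext γ
      simp only [MonoidHom.mul_apply, MonoidHom.pow_apply]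
      rw [← pow_succ]
    rw [hk, hc, ← pow_succ] at h
    exact h

/-- a nonzero function has at most one character -/
theorem char_unique {N : ℕ} {χ χ' : Gamma0 N →* ℂˣ} {k : ℤ} {G : ℍ → ℂ} (hG : IsCFχ N χ k G)
    (hG' : IsCFχ N χ' k G) (h0 : G ≠ 0) : χ = χ' := by
  ext γ
  have h1 := hG.slash γ
  rw [hG'.slash γ] at h1
  obtain ⟨τ, hτ⟩ : ∃ τ, G τ ≠ 0 := by
    by_contra hcon
    push Not at hcon
    exact h0 (funext hcon)
  have h2 := congrFun h1 τ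
  simp only [Pi.smul_apply, smul_eq_mul] at h2
  exact (mul_right_cancel₀ hτ h2).symm

end CharIndep

open CharIndep in
theorem stmt_char_indep (hmul : Stmt_mul) (_hpow : Stmt_pow) (htw : Stmt_twist) :
    Stmt_char_indep := by
  intro N _ m hm σ χ χ₁ χ₂ hχ hχ₁ hχ₂ k G₁ G₂ G₁' G₂' a₁ a₂ ha₁ ha₂ hG₁ hq₁ hG₂ hq₂ hG₁' hq₁'
    hG₂' hq₂'
  obtain ⟨j, rfl⟩ : ∃ j, m = j + 1 := ⟨m - 1, by omega⟩
  rcases Nat.eq_zero_or_pos j with rfl | hj
  · ext γ
    have h1 := hχ₁ γ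
    have h2 := hχ₂ γ
    simp only [zero_add, pow_one] at h1 h2
    rw [h1, h2]
  obtain ⟨i, rfl⟩ : ∃ i, j = i + 1 := ⟨j - 1, by omega⟩
  -- the auxiliary products
  have hk : k + k * ((i + 1 : ℕ) : ℤ) = k * ((i + 1 + 1 : ℕ) : ℤ) := by push_cast; ring
  have hH : IsCFχ N 1 (k * ((i + 1 + 1 : ℕ) : ℤ)) (G₁ * G₂ ^ (i + 1)) := by
    have h := hmul N _ _ _ _ _ _ hG₁ (isCFχ_pow hmul hG₂ i)
    have hc : χ * χ ^ (i + 1) = 1 := by
      ext γ
      have := hχ γ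
      simp only [MonoidHom.mul_apply, MonoidHom.pow_apply, MonoidHom.one_apply]
      rw [← pow_succ', this]
    rwa [hc, hk] at h
  have hHq : HasQE 1 (G₁ * G₂ ^ (i + 1)) (a₁ * a₂ ^ (i + 1)) := hq₁.mul (hq₂.pow _)
  obtain ⟨H', hH', hH'q⟩ := htw N σ _ _ _ hH hHq
  have hH2 : IsCFχ N (χ₁ * χ₂ ^ (i + 1)) (k * ((i + 1 + 1 : ℕ) : ℤ)) (G₁' * G₂' ^ (i + 1)) := by
    have h := hmul N _ _ _ _ _ _ hG₁' (isCFχ_pow hmul hG₂' i)
    rwa [hk] at h
  have hH2q : HasQE 1 (G₁' * G₂' ^ (i + 1)) ((a₁ * a₂ ^ (i + 1)).map σ) := by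
    have := hq₁'.mul (hq₂'.pow (i + 1))
    rwa [← map_pow, ← map_mul] at this
  have heq : H' = G₁' * G₂' ^ (i + 1) := hH'q.fun_unique hH2q
  rw [heq] at hH'
  have hne : G₁' * G₂' ^ (i + 1) ≠ 0 := by
    intro h0
    rw [h0] at hH2q
    have h1 := hH2q.unique one_pos (HasQE.zero 1)
    have hinj : Function.Injective (PowerSeries.map σ) :=
      PowerSeries.map_injective σ σ.injective
    have h2 : a₁ * a₂ ^ (i + 1) = 0 := hinj (by rw [h1, map_zero])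
    exact (mul_ne_zero ha₁ (pow_ne_zero _ ha₂)) h2
  have hc := char_unique hH2 hH' hne
  ext γ
  have h1 := congrArg (fun f : Gamma0 N →* ℂˣ => f γ) hc
  simp only [MonoidHom.mul_apply, MonoidHom.pow_apply, MonoidHom.one_apply] at h1
  have h2 := hχ₂ γ
  have h3 : χ₁ γ = χ₂ γ := by
    calc χ₁ γ = χ₁ γ * (χ₂ γ) ^ (i + 1 + 1) := by rw [h2, mul_one]
      _ = (χ₁ γ * (χ₂ γ) ^ (i + 1)) * χ₂ γ := by rw [pow_succ (χ₂ γ) (i + 1), mul_assoc]
      _ = χ₂ γ := by rw [h1, one_mul]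
  rw [h3]

end Fermat.Agent.ES.Desc
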