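import Fermat.Agent.ES.Desc.Interface
import Fermat.Agent.QInt.Quotient

/-!
# ES / DESC-G : the `m`-th root of a cusp form on `Γ₀(N)` is a cusp form with character
-/

set_option autoImplicit false

namespace Fermat.Agent.ES.Desc

open UpperHalfPlane ModularForm CongruenceSubgroup Matrix.SpecialLinearGroup Filter Topology
open scoped MatrixGroups ModularForm Manifold

noncomputable section

namespace CharOfRoot

/-- holomorphic functions on `ℍ` have no zero divisors. -/
theorem eq_zero_or_eq_zero_of_mul {f g : ℍ → ℂ} (hf : MDiff f) (hg : MDiff g) (h : f * g = 0) :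
    f = 0 ∨ g = 0 := by
  by_cases hf0 : f = 0
  · exact Or.inl hf0
  · refine Or.inr (QInt.eq_zero_of_forall_ne hf hf0 hg.continuous fun z hz => ?_)
    have := congrFun h z
    simp only [Pi.mul_apply, Pi.zero_apply, mul_eq_zero] at this
    exact this.resolve_left hz

theorem exists_eq_zero_of_prod {ι : Type*} (s : Finset ι) (f : ι → ℍ → ℂ)
    (hf : ∀ i ∈ s, MDiff (f i)) (h : ∏ i ∈ s, f i = 0) : ∃ i ∈ s, f i = 0 := by
  classical
  induction s using Finset.induction_on with
  | empty =>
    exfalso
    rw [Finset.prod_empty] at h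
    have := congrFun h UpperHalfPlane.I
    simp at this
  | insert a s ha ih =>
    rw [Finset.prod_insert ha] at h
    have hprod : MDiff (∏ i ∈ s, f i) := by
      have : ∀ t : Finset ι, (∀ i ∈ t, MDiff (f i)) → MDiff (∏ i ∈ t, f i) := by
        intro t
        induction t using Finset.induction_on with
        | empty =>
          intro _
          rw [Finset.prod_empty]
          exact mdifferentiable_const
        | insert b t hb iht =>
          intro hft
          rw [Finset.prod_insert hb]
          exact (hft b (Finset.mem_insert_self _ _)).mul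
            (iht fun i hi => hft i (Finset.mem_insert_of_mem hi))
      exact this s fun i hi => hf i (Finset.mem_insert_of_mem hi)
    rcases eq_zero_or_eq_zero_of_mul (hf a (Finset.mem_insert_self _ _)) hprod h with h0 | h0
    · exact ⟨a, Finset.mem_insert_self _ _, h0⟩
    · obtain ⟨i, hi, hi0⟩ := ih (fun i hi => hf i (Finset.mem_insert_of_mem hi)) h0
      exact ⟨i, Finset.mem_insert_of_mem hi, hi0⟩

/-- `A ^ m = B ^ m` for holomorphic functions on `ℍ` implies `A = c • B` with `c ^ m = 1`. -/
theorem exists_root_of_unity {m : ℕ} (hm : 0 < m) {A B : ℍ → ℂ} (hA : MDiff A) (hB : MDiff B)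
    (h : A ^ m = B ^ m) : ∃ c : ℂ, c ^ m = 1 ∧ A = c • B := by
  have hm' : m ≠ 0 := hm.ne'
  have hprim : IsPrimitiveRoot (Complex.exp (2 * Real.pi * Complex.I / m)) m :=
    Complex.isPrimitiveRoot_exp m hm'
  have hprod : ∏ ζ ∈ Polynomial.nthRootsFinset m (1 : ℂ), (A - ζ • B) = 0 := by
    ext z
    rw [Finset.prod_apply]
    have h1 := hprim.pow_sub_pow_eq_prod_sub_mul (A z) (B z) hm
    have h2 : A z ^ m = B z ^ m := congrFun h z
    simp only [Pi.sub_apply, Pi.smul_apply, smul_eq_mul, Pi.zero_apply]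
    rw [← h1, h2, sub_self]
  obtain ⟨ζ, hζ, h0⟩ := exists_eq_zero_of_prod _ _
    (fun ζ _ => hA.sub (hB.const_smul ζ)) hprod
  refine ⟨ζ, ?_, sub_eq_zero.1 h0⟩
  exact (Polynomial.mem_nthRootsFinset hm 1).1 hζ

end CharOfRoot

theorem stmt_charOfRoot : Stmt_charOfRoot := by
  intro N m hm k G' hG' hG0 hcf
  -- the constants
  have hex : ∀ γ : Gamma0 N, ∃ c : ℂ, c ^ m = 1 ∧ G' ∣[k] (γ : SL(2, ℤ)) = c • G' := by
    intro γ
    refine CharOfRoot.exists_root_of_unity hm (hG'.slash k _) hG' ?_
    rw [← QInt.pow_slash_SL2, hcf.slash γ]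
    simp
  choose c hc1 hc2 using hex
  have huniq : ∀ a b : ℂ, a • G' = b • G' → a = b := by
    intro a b hab
    obtain ⟨z, hz⟩ : ∃ z, G' z ≠ 0 := by
      by_contra hcon
      push Not at hcon
      exact hG0 (funext hcon)
    have := congrFun hab z
    simp only [Pi.smul_apply, smul_eq_mul] at this
    exact mul_right_cancel₀ hz this
  have hc0 : ∀ γ, c γ ≠ 0 := by
    intro γ h0
    have := hc1 γ
    rw [h0, zero_pow hm.ne'] at this
    exact zero_ne_one this
  have hmul : ∀ γ₁ γ₂ : Gamma0 N, c (γ₁ * γ₂) = c γ₁ * c γ₂ := by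
    intro γ₁ γ₂
    apply huniq
    rw [← hc2, Subgroup.coe_mul, SlashAction.slash_mul, hc2, SL_smul_slash, hc2, smul_smul]
  have hone : c 1 = 1 := by
    apply huniq
    rw [← hc2, Subgroup.coe_one, SlashAction.slash_one, one_smul]
  let χ' : Gamma0 N →* ℂˣ :=
    { toFun := fun γ => Units.mk0 (c γ) (hc0 γ)
      map_one' := by
        ext
        simp [hone]
      map_mul' := by
        intro γ₁ γ₂
        ext
        simp [hmul] }
  refine ⟨χ', ?_, hG', ?_, ?_⟩
  · intro γ
    ext
    simp [χ', hc1]
  · intro γ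
    simpa [χ'] using hc2 γ
  · intro g
    refine QInt.isZeroAtImInfty_of_pow (n := m) ?_
    rw [← QInt.pow_slash_SL2]
    exact hcf.zero g

end

end Fermat.Agent.ES.Desc
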