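import Fermat.Agent.ES.Desc.Interface
import Fermat.Agent.QInt.AutC

/-!
# ES / DESC-K : finiteness of characters, finite orbit ⇒ algebraic, canonical elements are algebraic
-/

set_option autoImplicit false

namespace Fermat.Agent.ES.Desc

open UpperHalfPlane ModularForm CongruenceSubgroup Matrix.SpecialLinearGroup Filter Topology
open Polynomial
open scoped MatrixGroups ModularForm Manifold

noncomputable section

/-- `SL(2, ℤ)` is finitely generated. -/
theorem fg_SL2Z : Group.FG SL(2, ℤ) := by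
  rw [Group.fg_iff]
  exact ⟨{ModularGroup.S, ModularGroup.T}, _root_.SpecialLinearGroup.SL2Z_generators,
    by simp⟩

/-- General finiteness: homs from a finitely generated group with values of exponent `m`
in `ℂˣ`. -/
theorem finite_homs_of_fg {G : Type*} [Group G] [Group.FG G] (m : ℕ) (hm : 0 < m) :
    {χ : G →* ℂˣ | ∀ γ, χ γ ^ m = 1}.Finite := by
  classical
  obtain ⟨S, hS, hfin⟩ := Group.fg_iff.1 (inferInstance : Group.FG G)
  have : NeZero m := ⟨hm.ne'⟩
  have : Finite S := hfin.to_subtype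
  -- the restriction map to `S → rootsOfUnity m ℂ` is injective
  let Φ : {χ : G →* ℂˣ | ∀ γ, χ γ ^ m = 1} → (S → rootsOfUnity m ℂ) :=
    fun χ s => ⟨χ.1 s.1, by rw [mem_rootsOfUnity]; exact χ.2 s.1⟩
  have hinj : Function.Injective Φ := by
    intro χ₁ χ₂ h
    apply Subtype.ext
    apply MonoidHom.eq_of_eqOn_dense hS
    intro s hs
    have := congrFun h ⟨s, hs⟩
    exact congrArg Subtype.val this
  have : Finite {χ : G →* ℂˣ | ∀ γ, χ γ ^ m = 1} := Finite.of_injective Φ hinj
  exact Set.toFinite _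

theorem stmt_finite_chars : Stmt_finite_chars := by
  intro N _ m hm
  have := fg_SL2Z
  have : Group.FG (Gamma0 N) := Subgroup.fg_of_index_ne_zero (Gamma0 N)
  exact finite_homs_of_fg m hm

theorem stmt_algebraic_of_finite_orbit : Stmt_algebraic_of_finite_orbit := by
  intro z hfin
  by_contra hz
  have hcount := QInt.countable_polynomial_rat
  have key : ∀ n : ℕ, ∃ σ : ℂ ≃+* ℂ, σ z = z + n := by
    intro n
    have hz1 : Transcendental ℚ (z + n) := by
      intro hcon
      apply hz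
      have := hcon.sub (isAlgebraic_natCast (R := ℚ) (A := ℂ) n)
      simpa using this
    obtain ⟨σ, hσ⟩ := QInt.exists_ringEquiv_of_injective (R := ℚ[X])
      (aeval z : ℚ[X] →ₐ[ℚ] ℂ).toRingHom (aeval (z + n) : ℚ[X] →ₐ[ℚ] ℂ).toRingHom
      (transcendental_iff_injective.1 hz) (transcendental_iff_injective.1 hz1)
    have := hσ X
    exact ⟨σ, by simpa using this⟩
  have hinj : Function.Injective (fun n : ℕ => z + (n : ℂ)) := by
    intro a b hab
    have : (a : ℂ) = b := add_left_cancel hab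
    exact_mod_cast this
  have hsub : Set.range (fun n : ℕ => z + (n : ℂ)) ⊆ Set.range fun σ : ℂ ≃+* ℂ => σ z := by
    rintro _ ⟨n, rfl⟩
    obtain ⟨σ, hσ⟩ := key n
    exact ⟨σ, hσ⟩
  exact Set.infinite_range_of_injective hinj (hfin.subset hsub)

theorem stmt_canon_algebraic (h1 : Stmt_finite_chars) (h2 : Stmt_algebraic_of_finite_orbit)
    (h3 : Stmt_canon_unique) (h4 : Stmt_canon_map) : Stmt_canon_algebraic := by
  intro N _ m hm χ hχ k c hc n
  apply h2
  -- the orbit of `c` is finite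
  have hfinχ := h1 N m hm
  have hsub : (Set.range fun σ : ℂ ≃+* ℂ => c.map (σ : ℂ →+* ℂ)) ⊆
      ⋃ χ' ∈ {χ : Gamma0 N →* ℂˣ | ∀ γ, χ γ ^ m = 1}, {c' | IsCanon N χ' k c'} := by
    rintro _ ⟨σ, rfl⟩
    obtain ⟨χ', hχ', hcan⟩ := h4 N m hm σ χ hχ k c hc
    exact Set.mem_biUnion (x := χ') hχ' hcan
  have hfin : (Set.range fun σ : ℂ ≃+* ℂ => c.map (σ : ℂ →+* ℂ)).Finite := by
    refine (Set.Finite.biUnion hfinχ fun χ' _ => ?_).subset hsub
    exact Set.Subsingleton.finite fun a ha b hb => h3 N χ' k a b ha hb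
  have himg : (Set.range fun σ : ℂ ≃+* ℂ => σ (PowerSeries.coeff n c)) =
      (fun a : PowerSeries ℂ => PowerSeries.coeff n a) ''
        (Set.range fun σ : ℂ ≃+* ℂ => c.map (σ : ℂ →+* ℂ)) := by
    ext w
    constructor
    · rintro ⟨σ, rfl⟩
      exact ⟨_, ⟨σ, rfl⟩, by simp⟩
    · rintro ⟨_, ⟨σ, rfl⟩, rfl⟩
      exact ⟨σ, by simp⟩
  rw [himg]
  exact hfin.image _

end

end Fermat.Agent.ES.Desc
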