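import Fermat.Agent.ES.Desc.Interface
import Fermat.Agent.ES.EisChar
import Fermat.Agent.S16.QE1

/-!
# ES / DESC-L : `Stmt_desc` from the work packages
-/

set_option autoImplicit false

namespace Fermat.Agent.ES.Desc

open UpperHalfPlane ModularForm CongruenceSubgroup Matrix.SpecialLinearGroup Filter Topology
open Fermat.Agent.S16 (HasQE theta E2f)
open Fermat.Agent.S16.QE1
open scoped MatrixGroups ModularForm Manifold

noncomputable section

theorem norm_eq_one_of_pow_eq_one {m : ℕ} (hm : 0 < m) {u : ℂˣ} (h : u ^ m = 1) :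
    ‖((u : ℂˣ) : ℂ)‖ = 1 := by
  have h1 : ((u : ℂˣ) : ℂ) ^ m = 1 := by
    have := congrArg (fun x : ℂˣ => (x : ℂ)) h
    simpa using this
  exact Complex.norm_eq_one_of_pow_eq_one h1 hm.ne'

/-- `E_{12,χ} Δ` is a nonzero cusp form of weight `24` with character `χ`. -/
theorem exists_nonzero (N : ℕ) (m : ℕ) (hm : 0 < m) (χ : Gamma0 N →* ℂˣ) (hχ : ∀ γ, χ γ ^ m = 1)
    (hpar : ∀ γ : Gamma0 N, (γ : SL(2, ℤ)) 1 0 = 0 → χ γ = 1) :
    ∃ G : ℍ → ℂ, G ≠ 0 ∧ IsCFχ N χ 24 G := by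
  obtain ⟨F, hFholo, hFslash, hFbdd, hFlim⟩ :=
    EisChar.exists_eisChar (Gamma0 N) χ (fun γ => norm_eq_one_of_pow_eq_one hm (hχ γ)) hpar 12
      (by norm_num) (by decide)
  have hΔ := Fermat.Agent.S20.isCF_discriminant
  refine ⟨F * ModularForm.discriminant, ?_, ?_, ?_, ?_⟩
  · intro h
    -- `F → 1`, so `F z ≠ 0` for some `z`, and `Δ z ≠ 0`
    have h1 : ∀ᶠ z in atImInfty, F z ≠ 0 :=
      hFlim.eventually_ne one_ne_zero
    obtain ⟨z, hz⟩ := h1.exists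
    have h2 := congrFun h z
    simp only [Pi.mul_apply, Pi.zero_apply, mul_eq_zero] at h2
    rcases h2 with h2 | h2
    · exact hz h2
    · exact ModularForm.discriminant_ne_zero z h2
  · exact hFholo.mul hΔ.holo
  · intro γ
    have : (24 : ℤ) = 12 + 12 := by norm_num
    rw [this, mul_slash_SL2, hFslash γ, hΔ.inv _ trivial, smul_mul_assoc]
  · intro g
    have : (24 : ℤ) = 12 + 12 := by norm_num
    rw [this, mul_slash_SL2, mul_comm]
    exact (hΔ.zero g).mul_boundedAtFilter (hFbdd g)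

theorem stmt_desc (hq : Stmt_exists_hasQE) (hce : Stmt_canon_exists)
    (hca : Stmt_canon_algebraic) : Stmt_desc := by
  intro N _ m hm χ hχ hpar
  obtain ⟨G₀, hG₀, hG₀c⟩ := exists_nonzero N m hm χ hχ hpar
  obtain ⟨a₀, ha₀⟩ := hq N χ 24 G₀ hG₀c hpar
  have ha₀0 : a₀ ≠ 0 := by
    intro h
    rw [h] at ha₀
    exact hG₀ (ha₀.fun_unique (HasQE.zero 1))
  obtain ⟨c, hc⟩ := hce N m hm χ hχ 24 ⟨a₀, ⟨G₀, hG₀c, ha₀⟩, ha₀0⟩
  obtain ⟨⟨G, hG, hGq⟩, hc0, -, -⟩ := id hc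
  refine ⟨2, G, c, by norm_num, ?_, by simpa using hG, hGq, hca N m hm χ hχ 24 c hc⟩
  intro h
  rw [h] at hGq
  exact hc0 (hGq.unique one_pos (HasQE.zero 1))

end

end Fermat.Agent.ES.Desc
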