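import Fermat.Agent.ES.Desc.Interface

/-! # ES / DESC-D : the order lemma (pure complex analysis).  helper83. -/

set_option autoImplicit false

namespace Fermat.Agent.ES.Desc

open UpperHalfPlane ModularForm Filter Topology Complex
open scoped Manifold

namespace OrderChain

lemma analyticAt_comp_ofComplex {F : ℍ → ℂ} (hF : MDiff F) (z : ℍ) :
    AnalyticAt ℂ (F ∘ ofComplex) (z : ℂ) :=
  (UpperHalfPlane.mdifferentiable_iff.mp hF).analyticAt
    (isOpen_upperHalfPlaneSet.mem_nhds z.im_pos)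

lemma analyticOnNhd_comp_ofComplex {F : ℍ → ℂ} (hF : MDiff F) :
    AnalyticOnNhd ℂ (F ∘ ofComplex) upperHalfPlaneSet :=
  (UpperHalfPlane.mdifferentiable_iff.mp hF).analyticOnNhd isOpen_upperHalfPlaneSet

lemma serre_comp_eventuallyEq (k : ℂ) (F : ℍ → ℂ) (z : ℍ) :
    (Derivative.serreDerivative k F ∘ ofComplex) =ᶠ[𝓝 (z : ℂ)]
      ((fun _ => (2 * (Real.pi : ℂ) * Complex.I)⁻¹) * deriv (F ∘ ofComplex) +
        -(((fun _ => k * 12⁻¹) * (EisensteinSeries.E2 ∘ ofComplex)) * (F ∘ ofComplex))) := by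
  filter_upwards [isOpen_upperHalfPlaneSet.mem_nhds z.im_pos] with x hx
  simp only [Function.comp_apply, Derivative.serreDerivative_apply,
    Derivative.normalizedDerivOfComplex, Pi.add_apply, Pi.mul_apply, Pi.neg_apply]
  rw [ofComplex_apply_of_im_pos hx]
  ring

lemma order_const {c : ℂ} (hc : c ≠ 0) (z : ℂ) : analyticOrderAt (fun _ : ℂ => c) z = 0 :=
  analyticOrderAt_eq_zero.mpr (Or.inr hc)

/-- order of the Serre derivative at a zero of order `a + 1`. -/
lemma order_serre (k : ℂ) {F : ℍ → ℂ} (hF : MDiff F) (z : ℍ) (a : ℕ)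
    (ha : analyticOrderAt (F ∘ ofComplex) (z : ℂ) = ((a + 1 : ℕ) : ℕ∞)) :
    analyticOrderAt (Derivative.serreDerivative k F ∘ ofComplex) (z : ℂ) = (a : ℕ∞) := by
  have hf := analyticAt_comp_ofComplex hF z
  have hE := analyticAt_comp_ofComplex _root_.E2_mdifferentiable z
  have hc : (2 * (Real.pi : ℂ) * Complex.I)⁻¹ ≠ 0 := by
    simp [Real.pi_ne_zero, Complex.I_ne_zero]
  rw [analyticOrderAt_congr (serre_comp_eventuallyEq k F z)]
  have h1 : analyticOrderAt ((fun _ => (2 * (Real.pi : ℂ) * Complex.I)⁻¹) * deriv (F ∘ ofComplex)) (z : ℂ)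
      = (a : ℕ∞) := by
    rw [analyticOrderAt_mul analyticAt_const hf.deriv, order_const hc, zero_add]
    exact analyticOrderAt_deriv_of_pos hf (by simpa using ha)
  have h2 : ((a + 1 : ℕ) : ℕ∞) ≤ analyticOrderAt
      (-(((fun _ => k * 12⁻¹) * (EisensteinSeries.E2 ∘ ofComplex)) * (F ∘ ofComplex))) (z : ℂ) := by
    rw [analyticOrderAt_neg, analyticOrderAt_mul (analyticAt_const.mul hE) hf, ha]
    exact le_add_self
  rw [analyticOrderAt_add_eq_left_of_lt, h1]
  rw [h1]
  refine lt_of_lt_of_le ?_ h2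
  exact_mod_cast Nat.lt_succ_self a

theorem key (m : ℕ) (hm : 0 < m) (F : ℕ → ℍ → ℂ) (w : ℕ → ℂ) (hF : ∀ i, MDiff (F i))
    (hid : ∀ i, (Derivative.serreDerivative (w i) (F i)) ^ m =
      ((m : ℂ) ^ m) • ((F i) ^ (m - 1) * F (i + 1))) (z : ℍ) :
    ∀ (a : ℕ) (i : ℕ), analyticOrderAt (F i ∘ ofComplex) (z : ℂ) = (a : ℕ∞) → m ∣ a := by
  intro a
  induction a using Nat.strong_induction_on with
  | _ a ih =>
    intro i ha
    rcases a with _ | a
    · exact dvd_zero m
    have hf := analyticAt_comp_ofComplex (hF i) z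
    have hf' := analyticAt_comp_ofComplex (hF (i + 1)) z
    have hS := analyticAt_comp_ofComplex
      (Derivative.serreDerivative_mdifferentiable (w i) (hF i)) z
    have hordS := order_serre (w i) (hF i) z a ha
    have hmm : ((m : ℂ) ^ m) ≠ 0 := pow_ne_zero _ (by exact_mod_cast hm.ne')
    have hfun : (Derivative.serreDerivative (w i) (F i) ∘ ofComplex) ^ m =
        (fun _ => ((m : ℂ) ^ m)) * ((F i ∘ ofComplex) ^ (m - 1) * (F (i + 1) ∘ ofComplex)) := by
      funext x
      have := congrFun (hid i) (ofComplex x)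
      simpa [Pi.pow_apply, Pi.mul_apply, Pi.smul_apply, smul_eq_mul] using this
    have hord := congrArg (fun g => analyticOrderAt g (z : ℂ)) hfun
    rw [analyticOrderAt_pow hS, analyticOrderAt_mul analyticAt_const ((hf.pow _).mul hf'),
      order_const hmm, zero_add, analyticOrderAt_mul (hf.pow _) hf', analyticOrderAt_pow hf,
      hordS, ha] at hord
    have hb : analyticOrderAt (F (i + 1) ∘ ofComplex) (z : ℂ) ≠ ⊤ := by
      intro htop
      rw [htop, add_top] at hord
      exact absurd hord (by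
        rw [nsmul_eq_mul]
        exact_mod_cast ENat.natCast_ne_top (m * a))
    obtain ⟨b, hb'⟩ := ENat.ne_top_iff_exists.mp hb
    rw [← hb'] at hord
    have hnat : m * a = (m - 1) * (a + 1) + b := by
      rw [nsmul_eq_mul, nsmul_eq_mul] at hord
      exact_mod_cast hord
    obtain ⟨m', rfl⟩ : ∃ m', m = m' + 1 := ⟨m - 1, by omega⟩
    have hab : a = m' + b := by
      simp only [Nat.add_sub_cancel] at hnat
      nlinarith
    have hdvd : (m' + 1) ∣ b := ih b (by omega) (i + 1) hb'.symm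
    have : a + 1 = b + (m' + 1) := by omega
    rw [this]
    exact Dvd.dvd.add hdvd (dvd_refl _)

end OrderChain

theorem stmt_orderChain : Stmt_orderChain := by
  intro m hm F w hF hid i z hne
  obtain ⟨a, ha⟩ := ENat.ne_top_iff_exists.mp hne
  obtain ⟨n, rfl⟩ := OrderChain.key m hm F w hF hid z a i ha.symm
  exact ⟨n, ha.symm⟩

theorem stmt_order_ne_top : Stmt_order_ne_top := by
  intro F hF hne z htop
  apply hne
  have h0 : (F ∘ ofComplex) =ᶠ[𝓝 (z : ℂ)] 0 := analyticOrderAt_eq_top.mp htop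
  have hpre : IsPreconnected upperHalfPlaneSet := (convex_halfSpace_im_gt 0).isPreconnected
  have := (OrderChain.analyticOnNhd_comp_ofComplex hF).eqOn_zero_of_preconnected_of_eventuallyEq_zero
    hpre z.im_pos h0
  funext x
  have hx := this x.im_pos
  simpa [Function.comp_apply, ofComplex_apply] using hx

end Fermat.Agent.ES.Desc
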