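import Fermat.Agent.ES.Desc.Interface
import Fermat.Agent.S16.QE1
import Fermat.Agent.S16.QE2
import Fermat.Agent.S16.SerrePair

/-!
# ES / DESC, package B : `q`-expansion of the Serre derivative, `σ`-equivariance, existence of
`q`-expansions
-/

set_option autoImplicit false

namespace Fermat.Agent.ES.Desc

open UpperHalfPlane ModularForm CongruenceSubgroup Matrix.SpecialLinearGroup Filter Topology
open Fermat.Agent.S16 (HasQE theta E2f)
open scoped MatrixGroups ModularForm Manifold

namespace QExp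

theorem theta_map (σ : ℂ →+* ℂ) (a : PowerSeries ℂ) : (theta a).map σ = theta (a.map σ) := by
  ext n
  simp [Fermat.Agent.S16.coeff_theta]

theorem sig_map (σ : ℂ →+* ℂ) (k : ℕ) :
    (Fermat.Agent.S16.sig k).map σ = Fermat.Agent.S16.sig k := by
  ext n
  simp [Fermat.Agent.S16.sig]

theorem smul_map (σ : ℂ →+* ℂ) (c : ℂ) (a : PowerSeries ℂ) :
    (c • a).map σ = σ c • a.map σ := by
  ext n
  simp

theorem E2f_map (σ : ℂ →+* ℂ) : E2f.map σ = E2f := by
  unfold Fermat.Agent.S16.E2f
  rw [map_sub, map_one, smul_map, sig_map, map_ofNat]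

/-- A function on `ℍ` invariant under `z ↦ 1 + z` gives a `1`-periodic function on `ℂ`. -/
theorem periodic_of_vadd {f : ℍ → ℂ} (hf : ∀ z : ℍ, f ((1 : ℝ) +ᵥ z) = f z) :
    Function.Periodic (f ∘ ofComplex) ((1 : ℝ) : ℂ) := by
  intro w
  by_cases hw : 0 < Complex.im w
  · have h1 : 0 < Complex.im (w + ((1 : ℝ) : ℂ)) := by simpa using hw
    simp only [Function.comp_apply, ofComplex_apply_of_im_pos h1, ofComplex_apply_of_im_pos hw]
    rw [← hf ⟨w, hw⟩]
    congr 1
    ext
    simp [add_comm]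
  · have hw' : Complex.im w ≤ 0 := not_lt.mp hw
    have h1 : Complex.im (w + ((1 : ℝ) : ℂ)) ≤ 0 := by simpa using hw'
    simp only [Function.comp_apply, ofComplex_apply_of_im_nonpos h1,
      ofComplex_apply_of_im_nonpos hw']

theorem T_mem_Gamma0 (N : ℕ) : ModularGroup.T ∈ Gamma0 N := by
  rw [Gamma0_mem]
  simp [ModularGroup.T]

set_option backward.isDefEq.respectTransparency.types false in
theorem slash_T_apply (k : ℤ) (G : ℍ → ℂ) (z : ℍ) :
    (G ∣[k] ModularGroup.T) z = G ((1 : ℝ) +ᵥ z) := by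
  rw [ModularForm.SL_slash_apply, denom, UpperHalfPlane.modular_T_smul, ModularGroup.T]
  simp

end QExp

theorem stmt_hasQE_serre : Stmt_hasQE_serre := by
  intro k F a hF
  have h := Fermat.Agent.S16.SDP.hasQE_serre Fermat.Agent.S16.hasQE_add
    Fermat.Agent.S16.hasQE_smul Fermat.Agent.S16.hasQE_mul Fermat.Agent.S16.hasQE_deriv
    one_pos k hF Fermat.Agent.S16.hasQE_E2
  simpa [serreF] using h

theorem stmt_serreF_map : Stmt_serreF_map := by
  intro σ k a
  unfold serreF
  rw [map_sub, QExp.theta_map, QExp.smul_map, map_mul, QExp.E2f_map, map_div₀, map_intCast,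
    map_ofNat]

theorem stmt_exists_hasQE : Stmt_exists_hasQE := by
  intro N χ k G hG hχ
  refine ⟨qExpansion 1 G, ?_⟩
  have hT : χ ⟨ModularGroup.T, QExp.T_mem_Gamma0 N⟩ = 1 := by
    apply hχ
    simp [ModularGroup.T]
  have hper : ∀ z : ℍ, G ((1 : ℝ) +ᵥ z) = G z := by
    intro z
    have h1 := hG.slash ⟨ModularGroup.T, QExp.T_mem_Gamma0 N⟩
    rw [hT] at h1
    have h2 := congrFun h1 z
    rw [QExp.slash_T_apply] at h2
    simpa using h2
  have hbdd : IsBoundedAtImInfty G := by
    have := hG.zero 1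
    rw [SlashAction.slash_one] at this
    exact this.isBoundedAtImInfty
  exact Fermat.Agent.S16.hasQE_of_periodic 1 G one_pos (QExp.periodic_of_vadd hper) hG.holo hbdd

end Fermat.Agent.ES.Desc
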