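import Fermat.Agent.ES.Desc.Interface
import Fermat.Agent.S16.QE1
import Fermat.Agent.S16.QE2

/-!
# ES / DESC-F : root extraction through the `q`-disc
-/

set_option autoImplicit false

namespace Fermat.Agent.ES.Desc

open UpperHalfPlane ModularForm Filter Topology Function.Periodic
open Fermat.Agent.S16 (HasQE)
open scoped MatrixGroups ModularForm Manifold Nat Real

noncomputable section

namespace RootQE

/-- the Taylor series at `0` of a function holomorphic on the unit disc gives a `q`-expansion. -/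
theorem hasQE_taylor (R : ℂ → ℂ) (hR : DifferentiableOn ℂ R (Metric.ball 0 1)) :
    HasQE 1 (fun τ : ℍ => R (qParam 1 τ))
      (PowerSeries.mk fun n => ((n ! : ℕ) : ℂ)⁻¹ * iteratedDeriv n R 0) := by
  intro τ
  have hq : qParam 1 (τ : ℂ) ∈ Metric.ball (0 : ℂ) 1 := by
    rw [mem_ball_zero_iff]
    exact norm_qParam_lt_one one_pos τ.im_pos
  have := Complex.hasSum_taylorSeries_on_ball hR hq
  have e : (fun n : ℕ => PowerSeries.coeff n
      (PowerSeries.mk fun n => ((n ! : ℕ) : ℂ)⁻¹ * iteratedDeriv n R 0) • qParam 1 (τ : ℂ) ^ n) =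
      fun n : ℕ => ((n ! : ℕ) : ℂ)⁻¹ • (qParam 1 (τ : ℂ) - 0) ^ n • iteratedDeriv n R 0 := by
    funext n
    simp only [PowerSeries.coeff_mk, smul_eq_mul, sub_zero]
    ring
  rw [e]
  exact this

theorem qParam_add_one (z : ℂ) : qParam 1 (z + 1) = qParam 1 z := by
  simp only [qParam, Complex.ofReal_one, div_one, mul_add, mul_one, Complex.exp_add,
    Complex.exp_two_pi_mul_I]

theorem periodic_of_hasQE {F : ℍ → ℂ} {a : PowerSeries ℂ} (hF : HasQE 1 F a) :
    Function.Periodic (F ∘ ofComplex) ((1 : ℝ) : ℂ) := by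
  intro z
  simp only [Function.comp_apply, Complex.ofReal_one]
  by_cases hz : 0 < z.im
  · have hz1 : 0 < (z + 1).im := by simpa using hz
    rw [ofComplex_apply_of_im_pos hz, ofComplex_apply_of_im_pos hz1]
    have h1 := hF ⟨z, hz⟩
    have h2 := hF ⟨z + 1, hz1⟩
    have h3 : qParam 1 ((⟨z + 1, hz1⟩ : ℍ) : ℂ) = qParam 1 ((⟨z, hz⟩ : ℍ) : ℂ) := qParam_add_one z
    rw [h3] at h2
    exact h2.unique h1
  · have hz' : z.im ≤ 0 := not_lt.mp hz
    have hz1 : (z + 1).im ≤ 0 := by simpa using hz'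
    rw [ofComplex_apply_of_im_nonpos hz', ofComplex_apply_of_im_nonpos hz1]

theorem exists_root_of_unity_of_pow_eq {m : ℕ} (hm : 0 < m) (c b : PowerSeries ℂ)
    (h : c ^ m = b ^ m) : ∃ ω : ℂ, ω ^ m = 1 ∧ c = ω • b := by
  have hζ : IsPrimitiveRoot (Complex.exp (2 * π * Complex.I / m)) m :=
    Complex.isPrimitiveRoot_exp m hm.ne'
  set ζ := Complex.exp (2 * π * Complex.I / m) with hζdef
  have hζ' : IsPrimitiveRoot (PowerSeries.C ζ : PowerSeries ℂ) m :=
    hζ.map_of_injective (f := (PowerSeries.C : ℂ →+* PowerSeries ℂ)) PowerSeries.C_injective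
  have h1 := hζ'.pow_sub_pow_eq_prod_sub_mul c b hm
  rw [h, sub_self] at h1
  obtain ⟨ξ, hξ, h0⟩ := Finset.prod_eq_zero_iff.mp h1.symm
  have hξ1 : ξ ^ m = 1 := (Polynomial.mem_nthRootsFinset hm 1).mp hξ
  have : NeZero m := ⟨hm.ne'⟩
  obtain ⟨i, _, hi⟩ := hζ'.eq_pow_of_pow_eq_one hξ1
  refine ⟨ζ ^ i, ?_, ?_⟩
  · rw [← pow_mul, mul_comm, pow_mul, hζ.pow_eq_one, one_pow]
  · rw [sub_eq_zero] at h0
    rw [h0, ← hi, ← map_pow, PowerSeries.smul_eq_C_mul]

/-- order at `0` from the Taylor coefficients. -/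
theorem order_zero_of_taylor (Φ : ℂ → ℂ) (hΦ : AnalyticAt ℂ Φ 0) (a : PowerSeries ℂ) (ha : a ≠ 0)
    (hcoef : (PowerSeries.mk fun n => ((n ! : ℕ) : ℂ)⁻¹ * iteratedDeriv n Φ 0) = a) :
    analyticOrderAt Φ 0 = ((a.order.toNat : ℕ) : ℕ∞) := by
  have hc : ∀ k, iteratedDeriv k Φ 0 = ((k ! : ℕ) : ℂ) * PowerSeries.coeff k a := by
    intro k
    rw [← hcoef, PowerSeries.coeff_mk, ← mul_assoc,
      mul_inv_cancel₀ (by exact_mod_cast (Nat.factorial_pos k).ne'), one_mul]
  rw [analyticOrderAt_eq_nat_iff_iteratedDeriv_eq_zero hΦ]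
  refine ⟨fun k hk => ?_, ?_⟩
  · rw [hc, PowerSeries.coeff_of_lt_order_toNat k hk, mul_zero]
  · rw [hc]
    exact mul_ne_zero (by exact_mod_cast (Nat.factorial_pos _).ne') (PowerSeries.coeff_order ha)

theorem order_pow_toNat (b : PowerSeries ℂ) (hb : b ≠ 0) (m : ℕ) :
    (b ^ m).order.toNat = m * b.order.toNat := by
  rw [PowerSeries.order_pow]
  have h1 : b.order = ((b.order.toNat : ℕ) : ℕ∞) :=
    (ENat.natCast_toNat (fun h => hb (PowerSeries.order_eq_top.mp h))).symm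
  rw [h1]
  simp

/-- order of the cusp function at a nonzero point of the disc. -/
theorem order_of_ne_zero (F : ℍ → ℂ) (Φ : ℂ → ℂ) (hΦF : ∀ τ : ℍ, Φ (qParam 1 τ) = F τ)
    (q : ℂ) (hq : ‖q‖ < 1) (hq0 : q ≠ 0) :
    ∃ z : ℍ, analyticOrderAt Φ q = analyticOrderAt (F ∘ ofComplex) (z : ℂ) := by
  have him := im_invQParam_pos_of_norm_lt_one one_pos hq hq0
  refine ⟨⟨invQParam 1 q, him⟩, ?_⟩
  have hqz : qParam 1 (invQParam 1 q) = q := qParam_right_inv one_ne_zero hq0
  have h1 : (F ∘ ofComplex) =ᶠ[𝓝 (invQParam 1 q)] (Φ ∘ qParam 1) := by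
    have hopen : IsOpen {z : ℂ | 0 < z.im} := isOpen_lt continuous_const Complex.continuous_im
    filter_upwards [hopen.mem_nhds him] with z hz
    have hz' : 0 < z.im := hz
    simp only [Function.comp_apply]
    rw [ofComplex_apply_of_im_pos hz', ← hΦF]
  show _ = analyticOrderAt (F ∘ ofComplex) (invQParam 1 q)
  rw [analyticOrderAt_congr h1]
  have hd := Fermat.Agent.S16.QE2.hasDerivAt_qParam 1 (invQParam 1 q)
  rw [analyticOrderAt_comp_of_deriv_ne_zero
    ((differentiable_qParam (h := 1)).analyticAt _) (by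
      rw [hd.deriv]
      refine mul_ne_zero ?_ (qParam_ne_zero _)
      simp [Real.pi_ne_zero]), hqz]

end RootQE

open RootQE in
/-- DESC-F: root extraction for a `1`-periodic function, through the `q`-disc. -/
theorem stmt_rootQE (hball : Stmt_ballRoot) : Stmt_rootQE := by
  intro m hm F b hFhol hFQE hord
  have hper := periodic_of_hasQE hFQE
  have hbdd : IsBoundedAtImInfty F := isBoundedAtImInfty_of_hasSum_qExpansion one_pos hFQE
  set Φ := cuspFunction 1 F with hΦ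
  have hΦd : DifferentiableOn ℂ Φ (Metric.ball 0 1) :=
    differentiableOn_cuspFunction_ball one_pos hper hFhol hbdd
  have hΦF : ∀ τ : ℍ, Φ (qParam 1 τ) = F τ := fun τ => eq_cuspFunction τ one_ne_zero hper
  have hΦan : AnalyticOnNhd ℂ Φ (Metric.ball 0 1) := hΦd.analyticOnNhd Metric.isOpen_ball
  have hcoef : (PowerSeries.mk fun n => ((n ! : ℕ) : ℂ)⁻¹ * iteratedDeriv n Φ 0) = b ^ m :=
    ((hasQE_taylor Φ hΦd).congr_fun hΦF).unique one_pos hFQE
  have hb : b ≠ 0 := by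
    rintro rfl
    rw [zero_pow hm.ne'] at hFQE
    have hF0 : F = 0 := hFQE.fun_unique (HasQE.zero 1)
    obtain ⟨n, hn⟩ := hord I
    have htop : analyticOrderAt (F ∘ ofComplex) ((I : ℍ) : ℂ) = ⊤ := by
      rw [analyticOrderAt_eq_top, hF0]
      exact Eventually.of_forall fun z => rfl
    rw [htop] at hn
    exact ENat.top_ne_natCast _ hn
  have hall : ∀ z ∈ Metric.ball (0 : ℂ) 1, ∃ n : ℕ, analyticOrderAt Φ z = ((m * n : ℕ) : ℕ∞) := by
    intro q hq
    rw [mem_ball_zero_iff] at hq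
    rcases eq_or_ne q 0 with rfl | hq0
    · refine ⟨b.order.toNat, ?_⟩
      rw [order_zero_of_taylor Φ (hΦan 0 (Metric.mem_ball_self one_pos)) (b ^ m)
        (pow_ne_zero _ hb) hcoef, order_pow_toNat b hb]
    · obtain ⟨z, hz⟩ := order_of_ne_zero F Φ hΦF q hq hq0
      rw [hz]
      exact hord z
  obtain ⟨R, hRan, hRpow⟩ := hball m hm 0 1 Φ hΦan hall
  have hRd : DifferentiableOn ℂ R (Metric.ball 0 1) := hRan.differentiableOn
  have hqball : ∀ τ : ℍ, qParam 1 (τ : ℂ) ∈ Metric.ball (0 : ℂ) 1 := fun τ => by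
    rw [mem_ball_zero_iff]
    exact norm_qParam_lt_one one_pos τ.im_pos
  set c : PowerSeries ℂ := PowerSeries.mk fun n => ((n ! : ℕ) : ℂ)⁻¹ * iteratedDeriv n R 0 with hc
  set G₀ : ℍ → ℂ := fun τ => R (qParam 1 τ) with hG₀
  have hG₀QE : HasQE 1 G₀ c := hasQE_taylor R hRd
  have hG₀pow : G₀ ^ m = F := by
    funext τ
    show R (qParam 1 τ) ^ m = F τ
    rw [hRpow _ (hqball τ), hΦF]
  have hcb : c ^ m = b ^ m := by
    have h1 := hG₀QE.pow m
    rw [hG₀pow] at h1
    exact h1.unique one_pos hFQE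
  obtain ⟨ω, hω, hcω⟩ := exists_root_of_unity_of_pow_eq hm c b hcb
  have hω0 : ω ≠ 0 := by
    rintro rfl
    rw [zero_pow hm.ne'] at hω
    exact zero_ne_one hω
  refine ⟨ω⁻¹ • G₀, ?_, ?_, ?_⟩
  · rw [UpperHalfPlane.mdifferentiable_iff]
    have h1 : DifferentiableOn ℂ (fun z : ℂ => ω⁻¹ * R (qParam 1 z)) {z : ℂ | 0 < z.im} := by
      refine DifferentiableOn.const_mul ?_ _
      refine hRd.comp (differentiable_qParam (h := 1)).differentiableOn ?_
      intro z hz
      rw [mem_ball_zero_iff]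
      exact norm_qParam_lt_one one_pos hz
    refine h1.congr fun z hz => ?_
    have hz' : 0 < z.im := hz
    simp only [Function.comp_apply, Pi.smul_apply, smul_eq_mul, hG₀]
    rw [ofComplex_apply_of_im_pos hz']
  · have h1 := hG₀QE.smul ω⁻¹
    rwa [hcω, smul_smul, inv_mul_cancel₀ hω0, one_smul] at h1
  · rw [smul_pow, hG₀pow, inv_pow, hω, inv_one, one_smul]

end

end Fermat.Agent.ES.Desc
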