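import Fermat.Agent.ES.Desc.Interface
import Fermat.Agent.QInt.Quotient

/-! ES / DESC-A : Serre derivative, powers and products of cusp forms with character. -/

set_option autoImplicit false

namespace Fermat.Agent.ES.Desc

open UpperHalfPlane ModularForm CongruenceSubgroup Matrix.SpecialLinearGroup Filter Topology
open scoped MatrixGroups ModularForm Manifold Real

noncomputable section

/-- Cauchy estimate: the normalised derivative of a holomorphic function vanishing at `i∞`
vanishes at `i∞`. -/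
theorem isZeroAtImInfty_normalizedDeriv {F : ℍ → ℂ} (hF : MDiff F)
    (hb : IsZeroAtImInfty F) :
    IsZeroAtImInfty (Derivative.normalizedDerivOfComplex F) := by
  rw [UpperHalfPlane.isZeroAtImInfty_iff] at hb ⊢
  intro ε hε
  have hc : 0 < ‖(2 * π * Complex.I : ℂ)⁻¹‖ := by
    rw [norm_pos_iff]
    simp [Real.pi_ne_zero]
  obtain ⟨A, h⟩ := hb (ε / ‖(2 * π * Complex.I : ℂ)⁻¹‖) (div_pos hε hc)
  have hd : DifferentiableOn ℂ (F ∘ ofComplex) upperHalfPlaneSet :=
    UpperHalfPlane.mdifferentiable_iff.mp hF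
  refine ⟨max A 0 + 2, fun z hz => ?_⟩
  have hA : A + 2 ≤ z.im := le_trans (by gcongr; exact le_max_left _ _) hz
  have h0 : 2 ≤ z.im := le_trans (by simp) hz
  have him : ∀ w ∈ Metric.closedBall (z : ℂ) 1 , A ≤ w.im ∧ 0 < w.im := by
    intro w hw
    have h1 : |(w - z).im| ≤ ‖w - z‖ := Complex.abs_im_le_norm _
    have h2 : ‖w - z‖ ≤ 1 := by simpa [dist_eq_norm] using hw
    have h3 := abs_le.mp (h1.trans h2)
    simp only [Complex.sub_im, coe_im] at h3
    exact ⟨by linarith [h3.1], by linarith [h3.1]⟩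
  have hsub : Metric.closedBall (z : ℂ) 1 ⊆ upperHalfPlaneSet := fun w hw => (him w hw).2
  have key : ‖deriv (F ∘ ofComplex) (z : ℂ)‖ ≤ (ε / ‖(2 * π * Complex.I : ℂ)⁻¹‖) / 1 := by
    refine Complex.norm_deriv_le_of_forall_mem_sphere_norm_le one_pos
      (hd.diffContOnCl_ball hsub) fun w hw => ?_
    have hw' := him w (Metric.sphere_subset_closedBall hw)
    have := h ⟨w, hw'.2⟩ hw'.1
    simpa [Function.comp_apply, ofComplex_apply_of_im_pos hw'.2] using this
  unfold Derivative.normalizedDerivOfComplex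
  rw [norm_mul]
  calc ‖(2 * π * Complex.I : ℂ)⁻¹‖ * ‖deriv (F ∘ ofComplex) (z : ℂ)‖
      ≤ ‖(2 * π * Complex.I : ℂ)⁻¹‖ * ((ε / ‖(2 * π * Complex.I : ℂ)⁻¹‖) / 1) := by gcongr
    _ = ε := by field_simp

variable {N : ℕ} {χ χ' : Gamma0 N →* ℂˣ} {k : ℤ} {G G' : ℍ → ℂ}

theorem IsCFχ.holo_slash (h : IsCFχ N χ k G) (g : SL(2, ℤ)) : MDiff (G ∣[k] g) :=
  h.holo.slash k _

theorem IsCFχ.zero_fun (N : ℕ) (χ : Gamma0 N →* ℂˣ) (k : ℤ) : IsCFχ N χ k (0 : ℍ → ℂ) where
  holo := mdifferentiable_const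
  slash γ := by simp
  zero g := by
    rw [SlashAction.zero_slash]
    exact zero_zeroAtFilter _

theorem IsCFχ.add (h : IsCFχ N χ k G) (h' : IsCFχ N χ k G') : IsCFχ N χ k (G + G') where
  holo := h.holo.add h'.holo
  slash γ := by rw [SlashAction.add_slash, h.slash, h'.slash, smul_add]
  zero g := by
    rw [SlashAction.add_slash]
    exact (h.zero g).add (h'.zero g)

theorem IsCFχ.smul (c : ℂ) (h : IsCFχ N χ k G) : IsCFχ N χ k (c • G) where
  holo := h.holo.const_smul c
  slash γ := by rw [ModularForm.SL_smul_slash, h.slash, smul_comm]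
  zero g := by
    rw [ModularForm.SL_smul_slash]
    exact (h.zero g).smul c

theorem IsCFχ.neg (h : IsCFχ N χ k G) : IsCFχ N χ k (-G) := by
  have := h.smul (-1)
  simpa using this

theorem IsCFχ.sub (h : IsCFχ N χ k G) (h' : IsCFχ N χ k G') : IsCFχ N χ k (G - G') := by
  rw [sub_eq_add_neg]
  exact h.add h'.neg

theorem char_unique (h : IsCFχ N χ k G) (h' : IsCFχ N χ' k G) (hG : G ≠ 0) : χ = χ' := by
  ext γ
  have h1 := (h.slash γ).symm.trans (h'.slash γ)
  obtain ⟨z, hz⟩ : ∃ z, G z ≠ 0 := by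
    by_contra hcon
    push Not at hcon
    exact hG (funext hcon)
  have h2 := congrFun h1 z
  simp only [Pi.smul_apply, smul_eq_mul] at h2
  exact mul_right_cancel₀ hz h2

theorem stmt_serre : Stmt_serre := by
  intro N χ k G h
  refine ⟨Derivative.serreDerivative_mdifferentiable _ h.holo, fun γ => ?_, fun g => ?_⟩
  · rw [Derivative.serreDerivative_slash_equivariant h.holo, h.slash,
      Derivative.serreDerivative_smul _ _ _ h.holo]
  · rw [Derivative.serreDerivative_slash_equivariant h.holo]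
    have h1 := isZeroAtImInfty_normalizedDeriv (h.holo_slash g) (h.zero g)
    have h2 : IsZeroAtImInfty
        (fun z : ℍ => (k : ℂ) * 12⁻¹ * EisensteinSeries.E2 z * (G ∣[k] g) z) :=
      ((Filter.const_boundedAtFilter _ ((k : ℂ) * 12⁻¹)).mul
        EisensteinSeries.isBoundedAtImInfty_E2).mul_zeroAtFilter (h.zero g)
    have h3 := Tendsto.sub h1 h2
    rw [sub_zero] at h3
    exact h3

theorem stmt_mul : Stmt_mul := by
  intro N χ₁ χ₂ k₁ k₂ G₁ G₂ h₁ h₂
  refine ⟨h₁.holo.mul h₂.holo, fun γ => ?_, fun g => ?_⟩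
  · rw [mul_slash_SL2, h₁.slash, h₂.slash]
    ext z
    simp only [Pi.mul_apply, Pi.smul_apply, smul_eq_mul, MonoidHom.mul_apply, Units.val_mul]
    ring
  · rw [mul_slash_SL2]
    have h3 := Tendsto.mul (h₁.zero g) (h₂.zero g)
    rw [mul_zero] at h3
    exact h3

theorem stmt_pow : Stmt_pow := by
  intro N χ k G m hm hχ h
  refine ⟨h.holo.pow m, fun γ => ?_, fun g => ?_⟩
  · rw [Fermat.Agent.QInt.pow_slash_SL2, h.slash]
    ext z
    simp only [Pi.pow_apply, Pi.smul_apply, smul_eq_mul, MonoidHom.one_apply, Units.val_one,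
      one_mul, mul_pow]
    have : ((χ γ : ℂˣ) : ℂ) ^ m = 1 := by
      have := congrArg Units.val (hχ γ)
      simpa using this
    rw [this, one_mul]
  · rw [Fermat.Agent.QInt.pow_slash_SL2]
    have h0 : IsZeroAtImInfty (G ∣[k] g) := h.zero g
    have : Tendsto ((G ∣[k] g) ^ m) atImInfty (𝓝 (0 ^ m)) := Tendsto.pow h0 m
    rw [zero_pow hm.ne'] at this
    exact this

theorem stmt_serre_pow : Stmt_serre_pow := by
  intro k G m hm hG
  ext z
  rw [Derivative.serreDerivative_apply, Derivative.normalizedDerivOfComplex_pow G m hG]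
  simp only [Pi.mul_apply, Pi.pow_apply, Pi.smul_apply, smul_eq_mul,
    Derivative.serreDerivative_apply, Pi.natCast_apply]
  obtain ⟨n, rfl⟩ : ∃ n, m = n + 1 := ⟨m - 1, by omega⟩
  simp only [Nat.add_sub_cancel]
  push_cast
  ring

end

end Fermat.Agent.ES.Desc
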