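import Fermat.Agent.ES.Desc.Interface
import Fermat.Agent.S16.QE1

/-!
# ES / DESC-H : assembly of the twist theorem `Stmt_TW`
-/

set_option autoImplicit false

namespace Fermat.Agent.ES.Desc

open UpperHalfPlane ModularForm CongruenceSubgroup Matrix.SpecialLinearGroup Filter Topology
open Fermat.Agent.S16 (HasQE theta E2f)
open Fermat.Agent.S16.QE1
open scoped MatrixGroups ModularForm Manifold

noncomputable section

theorem IsCFχ.congr_weight {N : ℕ} {χ : Gamma0 N →* ℂˣ} {k k' : ℤ} {G : ℍ → ℂ}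
    (h : IsCFχ N χ k G) (hk : k = k') : IsCFχ N χ k' G := hk ▸ h

/-- the iterated Serre derivatives. -/
def serreIter (k : ℤ) (G : ℍ → ℂ) : ℕ → ℍ → ℂ
  | 0 => G
  | (i + 1) => Derivative.serreDerivative (((k + 2 * (i : ℤ) : ℤ)) : ℂ) (serreIter k G i)

/-- the iterated formal Serre derivatives. -/
def serreFIter (k : ℤ) (a : PowerSeries ℂ) : ℕ → PowerSeries ℂ
  | 0 => a
  | (i + 1) => serreF (((k + 2 * (i : ℤ) : ℤ)) : ℂ) (serreFIter k a i)

theorem pow_identity {R : Type*} [CommRing R] [Algebra ℂ R] (m : ℕ) (x y : R) :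
    ((m : ℂ) • (x ^ (m - 1) * y)) ^ m = ((m : ℂ) ^ m) • ((x ^ m) ^ (m - 1) * y ^ m) := by
  rw [smul_pow, mul_pow, ← pow_mul, ← pow_mul, mul_comm (m - 1) m]

theorem map_natPow_smul (σ : ℂ →+* ℂ) (m : ℕ) (x : PowerSeries ℂ) :
    (((m : ℂ) ^ m) • x).map σ = ((m : ℂ) ^ m) • x.map σ := by
  ext n
  simp

theorem stmt_TW (hserre : Stmt_serre) (hpow : Stmt_pow) (hsp : Stmt_serre_pow)
    (hqs : Stmt_hasQE_serre) (hmap : Stmt_serreF_map) (htw : Stmt_twist)
    (hoc : Stmt_orderChain) (hnt : Stmt_order_ne_top) (hroot : Stmt_rootQE)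
    (hchar : Stmt_charOfRoot) : Stmt_TW := by
  intro N _ m hm σ χ hχ k G a hG ha
  by_cases ha0 : a = 0
  · refine ⟨χ, G, hχ, hG, ?_⟩
    rw [ha0, map_zero]
    rw [ha0] at ha
    exact ha
  -- the chain
  have hGs : ∀ i : ℕ, IsCFχ N χ (k + 2 * (i : ℤ)) (serreIter k G i) := by
    intro i
    induction i with
    | zero => simpa [serreIter] using hG
    | succ i ih =>
      exact (hserre N χ _ _ ih).congr_weight (by push_cast; ring)
  have hAs : ∀ i : ℕ, HasQE 1 (serreIter k G i) (serreFIter k a i) := by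
    intro i
    induction i with
    | zero => simpa [serreIter, serreFIter] using ha
    | succ i ih => exact hqs _ _ _ ih
  set f : ℕ → ℍ → ℂ := fun i => serreIter k G i ^ m with hf
  set b : ℕ → PowerSeries ℂ := fun i => serreFIter k a i ^ m with hb
  have hfc : ∀ i : ℕ, IsCFχ N 1 ((k + 2 * (i : ℤ)) * m) (f i) :=
    fun i => hpow N χ _ _ m hm hχ (hGs i)
  have hfq : ∀ i, HasQE 1 (f i) (b i) := fun i => (hAs i).pow m
  choose F hF hFq using fun i => htw N σ _ (f i) (b i) (hfc i) (hfq i)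
  set w : ℕ → ℂ := fun i => (((k + 2 * (i : ℤ)) * m : ℤ) : ℂ) with hw
  -- chain identity for `f`
  have hchain_f : ∀ i, (Derivative.serreDerivative (w i) (f i)) ^ m =
      ((m : ℂ) ^ m) • ((f i) ^ (m - 1) * f (i + 1)) := by
    intro i
    have h1 := hsp (k + 2 * (i : ℤ)) (serreIter k G i) m hm (hGs i).holo
    simp only [hw, hf]
    rw [h1]
    exact pow_identity m _ _
  -- chain identity for the series
  have hchain_b : ∀ i, (serreF (w i) (b i)) ^ m =
      ((m : ℂ) ^ m) • ((b i) ^ (m - 1) * b (i + 1)) := by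
    intro i
    have h1 : HasQE 1 ((Derivative.serreDerivative (w i) (f i)) ^ m) ((serreF (w i) (b i)) ^ m) :=
      (hqs _ _ _ (hfq i)).pow m
    have h2 : HasQE 1 (((m : ℂ) ^ m) • ((f i) ^ (m - 1) * f (i + 1)))
        (((m : ℂ) ^ m) • ((b i) ^ (m - 1) * b (i + 1))) :=
      (((hfq i).pow (m - 1)).mul (hfq (i + 1))).smul _
    rw [hchain_f i] at h1
    exact h1.unique one_pos h2
  -- twisted series identity
  have hchain_b' : ∀ i, (serreF (w i) ((b i).map σ)) ^ m =
      ((m : ℂ) ^ m) • (((b i).map σ) ^ (m - 1) * (b (i + 1)).map σ) := by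
    intro i
    have h1 := congrArg (PowerSeries.map σ) (hchain_b i)
    rw [map_pow, map_natPow_smul, map_mul, map_pow] at h1
    have h2 := hmap σ ((k + 2 * (i : ℤ)) * m) (b i)
    simp only [hw]
    rw [← h2]
    exact h1
  -- chain identity for `F`
  have hchain_F : ∀ i, (Derivative.serreDerivative (w i) (F i)) ^ m =
      ((m : ℂ) ^ m) • ((F i) ^ (m - 1) * F (i + 1)) := by
    intro i
    have h1 : HasQE 1 ((Derivative.serreDerivative (w i) (F i)) ^ m)
        ((serreF (w i) ((b i).map σ)) ^ m) := (hqs _ _ _ (hFq i)).pow m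
    have h2 : HasQE 1 (((m : ℂ) ^ m) • ((F i) ^ (m - 1) * F (i + 1)))
        (((m : ℂ) ^ m) • (((b i).map σ) ^ (m - 1) * (b (i + 1)).map σ)) :=
      (((hFq i).pow (m - 1)).mul (hFq (i + 1))).smul _
    rw [hchain_b' i] at h1
    exact h1.fun_unique h2
  have hb0 : b 0 = a ^ m := by simp [hb, serreFIter]
  have hσinj : Function.Injective (PowerSeries.map σ) := PowerSeries.map_injective σ σ.injective
  have haσ : a.map σ ≠ 0 := by
    intro h
    exact ha0 (hσinj (by rw [h, map_zero]))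
  have hF0q : HasQE 1 (F 0) ((a.map σ) ^ m) := by
    have := hFq 0
    rwa [hb0, map_pow] at this
  have hF0 : F 0 ≠ 0 := by
    intro h
    rw [h] at hF0q
    have := hF0q.unique one_pos (HasQE.zero 1)
    exact haσ (pow_eq_zero_iff hm.ne' |>.mp this)
  have hord : ∀ z : ℍ, ∃ n : ℕ, analyticOrderAt (F 0 ∘ ofComplex) (z : ℂ) = ((m * n : ℕ) : ℕ∞) :=
    fun z => hoc m hm F w (fun i => (hF i).holo) hchain_F 0 z (hnt (F 0) (hF 0).holo hF0 z)
  obtain ⟨G', hG'holo, hG'q, hG'pow⟩ := hroot m hm (F 0) (a.map σ) (hF 0).holo hF0q hord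
  have hG'0 : G' ≠ 0 := by
    intro h
    apply hF0
    rw [← hG'pow, h, zero_pow hm.ne']
  have hcf : IsCFχ N 1 (k * m) (G' ^ m) := by
    rw [hG'pow]
    exact (hF 0).congr_weight (by simp)
  obtain ⟨χ', hχ', hG'⟩ := hchar N m hm k G' hG'holo hG'0 hcf
  exact ⟨χ', G', hχ', hG', hG'q⟩

end

end Fermat.Agent.ES.Desc
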