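import Fermat.Agent.ES.Desc.Interface
import Fermat.Agent.S16.QE1
import Fermat.Agent.QInt.Main

/-!
# ES / DESC-C : bridge to Mathlib's `CuspForm`: `σ`-twist and Sturm bound (helper2)
-/

set_option autoImplicit false

namespace Fermat.Agent.ES.Desc

open UpperHalfPlane ModularForm CongruenceSubgroup Matrix.SpecialLinearGroup Filter Topology
open Fermat.Agent.S16 (HasQE theta E2f)
open scoped MatrixGroups ModularForm Manifold

namespace Twist0

theorem isCF_of {N : ℕ} {k : ℤ} {f : ℍ → ℂ} (h : IsCFχ N 1 k f) : QInt.IsCF (Gamma0 N) k f where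
  slash γ hγ := by
    have := h.slash ⟨γ, hγ⟩
    simpa using this
  holo := h.holo
  zero := h.zero

theorem of_isCF {N : ℕ} {k : ℤ} {f : ℍ → ℂ} (h : QInt.IsCF (Gamma0 N) k f) : IsCFχ N 1 k f where
  slash γ := by
    have := h.slash γ γ.2
    simpa using this
  holo := h.holo
  zero := h.zero

theorem hasQE_of_isCF {N : ℕ} [NeZero N] {k : ℤ} {f : ℍ → ℂ} (h : QInt.IsCF (Gamma0 N) k f) :
    HasQE 1 f (qExpansion 1 f) := by
  have hq := h.isMF.isQ le_rfl
  exact S16.hasQE_of_periodic 1 f one_pos hq.periodic hq.holo hq.bdd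

end Twist0

open Twist0 in
theorem stmt_twist : Stmt_twist := by
  intro N _ σ k f a hf ha
  have hcf := isCF_of hf
  obtain ⟨F, hF⟩ := QInt.exists_twist σ hcf.toForm
  have hFcf : QInt.IsCF (Gamma0 N) k F := QInt.IsCF.of_form F
  refine ⟨F, of_isCF hFcf, ?_⟩
  have e1 : a = qExpansion 1 f := ha.unique one_pos (hasQE_of_isCF hcf)
  have e2 : a.map σ = qExpansion 1 F := by
    ext n
    rw [PowerSeries.coeff_map, e1]
    exact (hF n).symm
  rw [e2]
  exact hasQE_of_isCF hFcf

open Twist0 in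
theorem stmt_sturm (hpow : Stmt_pow) : Stmt_sturm := by
  intro N _ m hm k
  refine ⟨P2MW.S_CuspForm_intLattice_fg.W3WsD.sturmB N (k * m), ?_⟩
  intro χ hχ G a hG ha h0
  have hGm := hpow N χ k G m hm hχ hG
  have hcf := isCF_of hGm
  have hqe : HasQE 1 (G ^ m) (a ^ m) := ha.pow m
  have e1 : a ^ m = qExpansion 1 (G ^ m) := hqe.unique one_pos (hasQE_of_isCF hcf)
  have hdvd : (PowerSeries.X : PowerSeries ℂ) ^
      (P2MW.S_CuspForm_intLattice_fg.W3WsD.sturmB N (k * m) + 1) ∣ a ^ m := by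
    refine dvd_trans ?_ (dvd_pow_self a hm.ne')
    rw [PowerSeries.X_pow_dvd_iff]
    intro n hn
    exact h0 n (Nat.lt_succ_iff.mp hn)
  rw [PowerSeries.X_pow_dvd_iff] at hdvd
  have hz : hcf.toForm = 0 := by
    apply P2MW.S_CuspForm_intLattice_fg.W3WsD.trunc_injective N (k * m)
    rw [map_zero]
    funext i
    show (qExpansion 1 (G ^ m)).coeff (i : ℕ) = 0
    rw [← e1]
    exact hdvd i i.2
  have hG0 : G ^ m = 0 := by
    have := congrArg (fun F : CuspForm (Gamma0 N) (k * m) => (F : ℍ → ℂ)) hz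
    simpa using this
  rw [hG0] at hqe
  have := S16.QE1.eq_zero_of_hasQE_zero one_pos hqe
  exact pow_eq_zero_iff hm.ne' |>.mp this

end Fermat.Agent.ES.Desc
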