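import Fermat.Agent.ES.Desc.Interface
import Fermat.Agent.ES.Desc.TW
import Fermat.Agent.ES.Desc.MainOf
import Fermat.Agent.ES.Desc.SerreChar
import Fermat.Agent.ES.Desc.QExp
import Fermat.Agent.ES.Desc.Twist0
import Fermat.Agent.ES.Desc.OrderChain
import Fermat.Agent.ES.Desc.BallRoot
import Fermat.Agent.ES.Desc.RootQE
import Fermat.Agent.ES.Desc.CharOfRoot
import Fermat.Agent.ES.Desc.CharIndep
import Fermat.Agent.ES.Desc.Canon
import Fermat.Agent.ES.Desc.Finite

/-!
# ES / DESC : final assembly (unconditional)
-/

set_option autoImplicit false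

namespace Fermat.Agent.ES.Desc

/-- THEOREM TW, unconditional. -/
theorem tw : Stmt_TW :=
  stmt_TW stmt_serre stmt_pow stmt_serre_pow stmt_hasQE_serre stmt_serreF_map stmt_twist
    stmt_orderChain stmt_order_ne_top (stmt_rootQE stmt_ballRoot) stmt_charOfRoot

theorem char_indep : Stmt_char_indep := stmt_char_indep stmt_mul stmt_pow stmt_twist

theorem canon_algebraic : Stmt_canon_algebraic :=
  stmt_canon_algebraic stmt_finite_chars stmt_algebraic_of_finite_orbit stmt_canon_unique
    (stmt_canon_map tw char_indep)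

/-- DESC, unconditional. -/
theorem desc : Stmt_desc :=
  stmt_desc stmt_exists_hasQE (stmt_canon_exists (stmt_sturm stmt_pow)) canon_algebraic

end Fermat.Agent.ES.Desc
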